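import Mathlib

/-!
# PROJECT C, slice C3 (general `G`): Neukirch's lemma on permutation lattices

`G` a finite group acting on a finite set `X`; `act g f = fun x => f (g⁻¹ • x)` is the permutation
action on `X → ℝ`.

* `exists_equivariant_family` : a `G`-stable subgroup `M ⊆ ℝ^X` spanning `ℝ^X` contains an
  `ℝ`-linearly independent family `w : X → M` with `act g (w x) = w (g • x)`.
* `exists_perm_embedding` : a free abelian group `A` of rank `#X` with additive endomorphisms
  `ρ g` and an injective equivariant spanning map to `ℝ^X` contains a finite-index copy of the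
  permutation lattice `ℤ^X`.
-/

set_option autoImplicit false

namespace Fermat.Agent.CFT.SUnit.PermLattice

open Finset

variable {G X : Type*} [Group G] [Fintype G] [Fintype X] [DecidableEq X] [MulAction G X]

/-- the permutation action of `G` on functions on `X` -/
def act (g : G) (f : X → ℝ) : X → ℝ := fun x => f (g⁻¹ • x)

omit [Fintype G] [Fintype X] [DecidableEq X] in
@[simp] theorem act_apply (g : G) (f : X → ℝ) (x : X) : act g f x = f (g⁻¹ • x) := rfl

omit [Fintype G] [Fintype X] [DecidableEq X] in
theorem act_one (f : X → ℝ) : act (1 : G) f = f := by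
  funext x; simp [act]

omit [Fintype G] [Fintype X] [DecidableEq X] in
theorem act_mul (g h : G) (f : X → ℝ) : act (g * h) f = act g (act h f) := by
  funext x; simp [act, mul_smul]

omit [Fintype G] [Fintype X] [DecidableEq X] in
theorem act_add (g : G) (f₁ f₂ : X → ℝ) : act g (f₁ + f₂) = act g f₁ + act g f₂ := rfl

omit [Fintype G] [Fintype X] [DecidableEq X] in
theorem act_sub (g : G) (f₁ f₂ : X → ℝ) : act g (f₁ - f₂) = act g f₁ - act g f₂ := rfl

omit [Fintype G] [Fintype X] [DecidableEq X] in
theorem act_smul (g : G) (c : ℝ) (f : X → ℝ) : act g (c • f) = c • act g f := rfl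

omit [Fintype G] [Fintype X] [DecidableEq X] in
theorem act_sum {ι : Type*} (s : Finset ι) (g : G) (f : ι → X → ℝ) :
    act g (∑ i ∈ s, f i) = ∑ i ∈ s, act g (f i) := by
  funext x
  simp [act, Finset.sum_apply]

omit [Fintype G] [Fintype X] in
theorem act_single (g : G) (x : X) (c : ℝ) : act g (Pi.single x c) = Pi.single (g • x) c := by
  funext y
  simp only [act, Pi.single_apply]
  by_cases h : y = g • x
  · subst h; simp
  · rw [if_neg h, if_neg]
    intro h'
    apply h
    rw [← h', smul_inv_smul]

omit [Fintype G] [DecidableEq X] in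
theorem norm_act (g : G) (f : X → ℝ) : ‖act g f‖ = ‖f‖ := by
  apply le_antisymm
  · rw [pi_norm_le_iff_of_nonneg (norm_nonneg _)]
    intro x
    exact norm_le_pi_norm f _
  · rw [pi_norm_le_iff_of_nonneg (norm_nonneg _)]
    intro x
    have := norm_le_pi_norm (act g f) (g • x)
    simpa [act] using this

omit [DecidableEq X] in
/-- a subgroup spanning the whole space is relatively dense -/
theorem exists_bound_of_span_eq_top (M : AddSubgroup (X → ℝ))
    (hspan : Submodule.span ℝ (M : Set (X → ℝ)) = ⊤) :
    ∃ B : ℝ, 0 ≤ B ∧ ∀ v : X → ℝ, ∃ γ ∈ M, ‖v - γ‖ ≤ B := by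
  classical
  obtain ⟨b, hbM, hbspan, hbli⟩ := exists_linearIndependent ℝ (M : Set (X → ℝ))
  rw [hspan] at hbspan
  let bas : Module.Basis b ℝ (X → ℝ) := Module.Basis.mk hbli (by
    rw [Subtype.range_coe_subtype, Set.ofPred_mem_eq]
    exact hbspan.ge)
  have hfin : Fintype b := FiniteDimensional.fintypeBasisIndex bas
  refine ⟨∑ i : b, ‖(i : X → ℝ)‖, Finset.sum_nonneg fun _ _ => norm_nonneg _, fun v => ?_⟩
  have hv : v = ∑ i : b, bas.repr v i • (i : X → ℝ) := by
    conv_lhs => rw [← bas.sum_repr v]
    refine Finset.sum_congr rfl fun i _ => ?_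
    rw [Module.Basis.mk_apply]
  generalize bas.repr v = c at hv
  refine ⟨∑ i : b, (round (c i) : ℤ) • (i : X → ℝ), ?_, ?_⟩
  · exact M.sum_mem fun i _ => M.zsmul_mem (hbM i.2) _
  · rw [hv, ← Finset.sum_sub_distrib]
    refine (norm_sum_le _ _).trans (Finset.sum_le_sum fun i _ => ?_)
    rw [← Int.cast_smul_eq_zsmul ℝ, ← sub_smul, norm_smul]
    calc ‖c i - (round (c i) : ℝ)‖ * ‖(i : X → ℝ)‖
        ≤ 1 * ‖(i : X → ℝ)‖ := by
          gcongr
          rw [Real.norm_eq_abs]
          exact (abs_sub_round _).trans (by norm_num)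
      _ = ‖(i : X → ℝ)‖ := one_mul _

/-- **Neukirch's lemma.** A `G`-stable subgroup `M` of the permutation representation `ℝ^X` which
spans it contains a family `w` indexed by `X`, linearly independent over `ℝ`, which is permuted by
`G` like `X`. -/
theorem exists_equivariant_family (M : AddSubgroup (X → ℝ))
    (hM : ∀ g : G, ∀ m ∈ M, act g m ∈ M)
    (hspan : Submodule.span ℝ (M : Set (X → ℝ)) = ⊤) :
    ∃ w : X → (X → ℝ), (∀ x, w x ∈ M) ∧ (∀ (g : G) (x : X), act g (w x) = w (g • x)) ∧
      LinearIndependent ℝ w := by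
  classical
  obtain ⟨B, hB0, hB⟩ := exists_bound_of_span_eq_top M hspan
  set t : ℝ := Fintype.card X * B + 1 with ht
  -- orbit representatives
  let o : X → MulAction.orbitRel.Quotient G X := fun x => Quotient.mk'' x
  let rep : MulAction.orbitRel.Quotient G X → X := Quotient.out
  have ho : ∀ (g : G) (x : X), o (g • x) = o x := fun g x =>
    Quotient.sound' (MulAction.mem_orbit x g)
  have hrep : ∀ x : X, ∃ σ : G, σ • rep (o x) = x := by
    intro x
    have h1 : o (rep (o x)) = o x := Quotient.out_eq' (o x)
    have h2 : rep (o x) ∈ MulAction.orbit G x := Quotient.exact' h1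
    obtain ⟨τ, hτ⟩ := h2
    refine ⟨τ⁻¹, ?_⟩
    rw [← hτ, inv_smul_smul]
  choose γ hγM hγ using fun ω : MulAction.orbitRel.Quotient G X =>
    hB (t • Pi.single (rep ω) (1 : ℝ))
  let S : X → Finset G := fun x => Finset.univ.filter fun σ => σ • rep (o x) = x
  have hSne : ∀ x, (S x).Nonempty := fun x => by
    obtain ⟨σ, hσ⟩ := hrep x
    exact ⟨σ, Finset.mem_filter.mpr ⟨Finset.mem_univ _, hσ⟩⟩
  let w : X → (X → ℝ) := fun x => ∑ σ ∈ S x, act σ (γ (o x))
  refine ⟨w, fun x => M.sum_mem fun σ _ => hM σ _ (hγM _), ?_, ?_⟩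
  · -- equivariance
    intro g x
    show act g (∑ σ ∈ S x, act σ (γ (o x))) = ∑ σ ∈ S (g • x), act σ (γ (o (g • x)))
    rw [act_sum]
    refine Finset.sum_equiv (Equiv.mulLeft g) (fun σ => ?_) (fun σ _ => ?_)
    · simp only [S, Finset.mem_filter, Finset.mem_univ, true_and, Equiv.coe_mulLeft, ho, mul_smul]
      constructor
      · intro h; rw [h]
      · intro h; exact smul_left_cancel g h
    · rw [Equiv.coe_mulLeft, act_mul, ho]
  · -- linear independence via diagonal dominance
    let δ : MulAction.orbitRel.Quotient G X → (X → ℝ) := fun ω =>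
      t • Pi.single (rep ω) (1 : ℝ) - γ ω
    let E : X → (X → ℝ) := fun x => ∑ σ ∈ S x, act σ (δ (o x))
    have hδ : ∀ ω, ‖δ ω‖ ≤ B := hγ
    have hE : ∀ x y, |E x y| ≤ (S x).card * B := by
      intro x y
      have h1 : ‖E x‖ ≤ (S x).card * B := by
        refine (norm_sum_le _ _).trans ?_
        refine (Finset.sum_le_card_nsmul _ _ B fun σ _ => ?_).trans (by rw [nsmul_eq_mul])
        rw [norm_act]
        exact hδ _
      exact (norm_le_pi_norm (E x) y).trans h1
    have hw : ∀ x, w x = ((S x).card * t) • Pi.single x (1 : ℝ) - E x := by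
      intro x
      have h1 : ∀ σ ∈ S x, act σ (γ (o x)) = t • Pi.single x (1 : ℝ) - act σ (δ (o x)) := by
        intro σ hσ
        have hσ' : σ • rep (o x) = x := (Finset.mem_filter.mp hσ).2
        show _ = _ - act σ (t • Pi.single (rep (o x)) (1 : ℝ) - γ (o x))
        rw [act_sub, act_smul, act_single, hσ']
        abel
      show ∑ σ ∈ S x, act σ (γ (o x)) = _
      rw [Finset.sum_congr rfl h1, Finset.sum_sub_distrib, Finset.sum_const, ← Nat.cast_smul_eq_nsmul ℝ,
        smul_smul]
    have hdet : (Matrix.of w).det ≠ 0 := by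
      apply det_ne_zero_of_sum_row_lt_diag
      intro x
      have hn : (0 : ℝ) < (S x).card := by exact_mod_cast (hSne x).card_pos
      have hoff : ∀ y ∈ Finset.univ.erase x, ‖Matrix.of w x y‖ ≤ (S x).card * B := by
        intro y hy
        have hyx : y ≠ x := (Finset.mem_erase.mp hy).1
        rw [Matrix.of_apply, hw x, Real.norm_eq_abs]
        simp only [Pi.sub_apply, Pi.smul_apply, Pi.single_apply, if_neg hyx, smul_zero, zero_sub,
          abs_neg]
        exact hE x y
      have hdiag : (S x).card * t - (S x).card * B ≤ ‖Matrix.of w x x‖ := by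
        rw [Matrix.of_apply, hw x, Real.norm_eq_abs]
        simp only [Pi.sub_apply, Pi.smul_apply, Pi.single_eq_same, smul_eq_mul, mul_one]
        have := hE x x
        have h2 := abs_le.mp this
        exact (sub_le_sub_left h2.2 _).trans (le_abs_self _)
      have hsum : ∑ y ∈ Finset.univ.erase x, ‖Matrix.of w x y‖
          ≤ ((Fintype.card X : ℝ) - 1) * ((S x).card * B) := by
        refine (Finset.sum_le_card_nsmul _ _ _ hoff).trans ?_
        have : Nonempty X := ⟨x⟩
        rw [nsmul_eq_mul, Finset.card_erase_of_mem (Finset.mem_univ x), Finset.card_univ,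
          Nat.cast_pred Fintype.card_pos]
      refine lt_of_le_of_lt hsum (lt_of_lt_of_le ?_ hdiag)
      have : ((Fintype.card X : ℝ) - 1) * ((S x).card * B) + (S x).card * B
          < (S x).card * t := by
        rw [ht]
        nlinarith
      linarith
    have hunit : IsUnit (Matrix.of w) := (Matrix.isUnit_iff_isUnit_det _).mpr (isUnit_iff_ne_zero.mpr hdet)
    have := Matrix.linearIndependent_rows_iff_isUnit.mpr hunit
    exact this

/-- An injective additive map between free abelian groups of the same finite rank has an image of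
finite index. -/
theorem finiteIndex_range_of_injective {ι₁ ι₂ : Type*} [Fintype ι₁] [Fintype ι₂]
    (hcard : Fintype.card ι₁ = Fintype.card ι₂) (φ : (ι₁ → ℤ) →+ (ι₂ → ℤ))
    (hφ : Function.Injective φ) : φ.range.FiniteIndex := by
  classical
  let φl : (ι₁ → ℤ) →ₗ[ℤ] (ι₂ → ℤ) := φ.toIntLinearMap
  have hφl : Function.Injective φl := hφ
  have hfr : Module.finrank ℤ (LinearMap.range φl) = Module.finrank ℤ (ι₂ → ℤ) := by
    rw [LinearMap.finrank_range_of_inj hφl, Module.finrank_fintype_fun_eq_card,
      Module.finrank_fintype_fun_eq_card, hcard]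
  have hfin : Finite ((ι₂ → ℤ) ⧸ LinearMap.range φl) :=
    Submodule.finiteQuotientOfFreeOfRankEq _ hfr
  have : φ.range = (LinearMap.range φl).toAddSubgroup := by
    ext y; simp [φl]
  rw [this]
  have hfin' : Finite ((ι₂ → ℤ) ⧸ (LinearMap.range φl).toAddSubgroup) := hfin
  exact AddSubgroup.finiteIndex_of_finite_quotient

/-- **Permutation sublattice.** Let `A` be a free abelian group of rank `#X` (given by an additive
isomorphism `e` with some `ℤ^ι'`, `#ι' = #X`) with additive endomorphisms `ρ g` (`g : G`) and an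
injective map `ι` to the permutation representation `ℝ^X`, equivariant for `ρ`, whose image spans.
Then `A` contains a `ρ`-stable sublattice of finite index isomorphic to the permutation lattice
`ℤ^X`. -/
theorem exists_perm_embedding {A : Type*} [AddCommGroup A] {ι' : Type*} [Fintype ι']
    (e : A ≃+ (ι' → ℤ)) (hcard : Fintype.card ι' = Fintype.card X)
    (ρ : G → A →+ A)
    (ι : A →+ (X → ℝ)) (hι : Function.Injective ι) (hequiv : ∀ (g : G) (a : A), ι (ρ g a) = act g (ι a))
    (hspan : Submodule.span ℝ (Set.range ι) = ⊤) :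
    ∃ ψ : (X → ℤ) →+ A, Function.Injective ψ ∧
      (∀ (g : G) (f : X → ℤ), ψ (fun x => f (g⁻¹ • x)) = ρ g (ψ f)) ∧ ψ.range.FiniteIndex := by
  classical
  have hspan' : Submodule.span ℝ ((ι.range : AddSubgroup (X → ℝ)) : Set (X → ℝ)) = ⊤ := by
    rw [AddMonoidHom.coe_range]; exact hspan
  obtain ⟨w, hwM, hwact, hwli⟩ := exists_equivariant_family (G := G) ι.range
    (by
      rintro g _ ⟨a, rfl⟩
      exact ⟨ρ g a, hequiv g a⟩) hspan'
  choose a ha using hwM
  have haact : ∀ (g : G) (x : X), ρ g (a x) = a (g • x) := by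
    intro g x
    apply hι
    rw [hequiv, ha, ha, hwact]
  have hli : LinearIndependent ℤ a := by
    have h1 : LinearIndependent ℤ w :=
      hwli.restrict_scalars (R := ℤ) (K := ℝ) (by
        intro m n h
        simpa using h)
    have h2 : LinearIndependent ℤ (ι.toIntLinearMap ∘ a) := by
      have : (ι.toIntLinearMap ∘ a) = w := by
        funext x; exact ha x
      rw [this]; exact h1
    exact LinearIndependent.of_comp _ h2
  let ψ : (X → ℤ) →ₗ[ℤ] A := Fintype.linearCombination ℤ a
  have hψinj : Function.Injective ψ := linearIndependent_iff_injective_fintypeLinearCombination.mp hli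
  refine ⟨ψ.toAddMonoidHom, hψinj, ?_, ?_⟩
  · intro g f
    show Fintype.linearCombination ℤ a _ = ρ g (Fintype.linearCombination ℤ a f)
    rw [Fintype.linearCombination_apply, Fintype.linearCombination_apply, map_sum]
    refine Finset.sum_equiv (MulAction.toPerm g⁻¹) (fun _ => by simp) (fun x _ => ?_)
    rw [map_zsmul, haact, MulAction.toPerm_apply, smul_inv_smul]
  · have h1 : (e.toAddMonoidHom.comp ψ.toAddMonoidHom).range.FiniteIndex :=
      finiteIndex_range_of_injective hcard.symm _ (e.injective.comp hψinj)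
    have h2 : ψ.toAddMonoidHom.range
        = (e.toAddMonoidHom.comp ψ.toAddMonoidHom).range.comap e.toAddMonoidHom := by
      ext y
      simp only [AddMonoidHom.mem_range, AddSubgroup.mem_comap, AddMonoidHom.coe_comp,
        Function.comp_apply]
      constructor
      · rintro ⟨f, rfl⟩; exact ⟨f, rfl⟩
      · rintro ⟨f, hf⟩; exact ⟨f, e.injective hf⟩
    rw [h2]
    constructor
    rw [AddSubgroup.index_comap_of_surjective _ e.surjective]
    exact h1.index_ne_zero

end Fermat.Agent.CFT.SUnit.PermLattice

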