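import Mathlib
import Fermat.Agent.CFT.SUnit.PermLattice

/-!
# PROJECT C, slice C3 (general `G`): the units of a number field as a Galois lattice

`L` a number field, `K` a subfield (any field with `Algebra K L`, `L/K` finite), `G = Gal(L/K)`.

* `unitsMap K L σ : (𝓞 L)ˣ →* (𝓞 L)ˣ` the Galois action on units; `unitsMapA` its additive form,
  `unitsMapQ` the induced action on `Additive ((𝓞 L)ˣ ⧸ torsion L)`; `mkQ` the projection.
* `logAll L : Additive (𝓞 L)ˣ →+ (InfinitePlace L → ℝ)` the logarithmic embedding with all infinite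
  places as coordinates (`logAll_unitsMap`: equivariance, `logAll_eq_zero_iff`: kernel = torsion,
  `sum_logAll`: image in the hyperplane `∑ = 0`); `logAllQ` on units modulo torsion (injective).
* `UZ L = Additive ((𝓞 L)ˣ ⧸ torsion L) × ℤ`, `iotaUZ L : UZ L →+ (InfinitePlace L → ℝ)`
  (`(u, k) ↦ log u + k • (1,…,1)`; injective, spanning), `rhoUZ K L σ` the Galois action,
  `equivUZ L : UZ L ≃+ (Option (Fin (Units.rank L)) → ℤ)`.
* `exists_perm_embedding_units` : `UZ L` contains a `G`-stable finite-index sublattice isomorphic to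
  the permutation lattice `ℤ[InfinitePlace L]`; hence (Herbrand, for cyclic `G`)
  `h(𝓞_Lˣ) · h(ℤ) = h(ℤ[InfinitePlace L]) = ∏_{v | ∞} n_v`.
-/

set_option autoImplicit false
set_option linter.unusedSectionVars false

namespace Fermat.Agent.CFT.SUnit.UnitsGalois

open NumberField NumberField.InfinitePlace NumberField.Units Fermat.Agent.CFT.SUnit.PermLattice

variable (K L : Type*) [Field K] [Field L] [NumberField L] [Algebra K L]

/-- the Galois action on the units of the ring of integers, as a monoid homomorphism -/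
noncomputable def unitsMap (σ : L ≃ₐ[K] L) : (𝓞 L)ˣ →* (𝓞 L)ˣ :=
  Units.map ((MulSemiringAction.toRingHom (L ≃ₐ[K] L) (𝓞 L) σ : 𝓞 L →+* 𝓞 L) : 𝓞 L →* 𝓞 L)

@[simp] theorem coe_unitsMap (σ : L ≃ₐ[K] L) (u : (𝓞 L)ˣ) :
    (((unitsMap K L σ u : (𝓞 L)ˣ) : 𝓞 L) : L) = σ ((u : 𝓞 L) : L) := rfl

/-- the logarithmic embedding with all infinite places as coordinates -/
noncomputable def logAll : Additive (𝓞 L)ˣ →+ (InfinitePlace L → ℝ) where
  toFun := fun x w => mult w * Real.log (w ((Additive.toMul x : (𝓞 L)ˣ) : L))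
  map_zero' := by
    funext w
    simp
  map_add' := fun x y => by
    funext w
    simp only [toMul_add, Units.val_mul, map_mul, Pi.add_apply]
    rw [Real.log_mul, mul_add]
    · exact (pos_at_place _ w).ne'
    · exact (pos_at_place _ w).ne'

@[simp] theorem logAll_apply (u : (𝓞 L)ˣ) (w : InfinitePlace L) :
    logAll L (Additive.ofMul u) w = mult w * Real.log (w ((u : 𝓞 L) : L)) := rfl

theorem sum_logAll (x : Additive (𝓞 L)ˣ) : ∑ w, logAll L x w = 0 :=
  sum_mult_mul_log (Additive.toMul x)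

theorem logAll_eq_zero_iff (u : (𝓞 L)ˣ) : logAll L (Additive.ofMul u) = 0 ↔ u ∈ torsion L := by
  rw [mem_torsion]
  constructor
  · intro h w
    have := congrFun h w
    rw [logAll_apply, Pi.zero_apply] at this
    exact dirichletUnitTheorem.mult_log_place_eq_zero.mp this
  · intro h
    funext w
    rw [logAll_apply, h w, Real.log_one, mul_zero, Pi.zero_apply]

theorem mult_smul (σ : L ≃ₐ[K] L) (w : InfinitePlace L) : mult (σ • w) = mult w := by
  unfold mult
  have h : (σ • w).IsReal ↔ w.IsReal := isReal_smul_iff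
  by_cases hw : w.IsReal
  · rw [if_pos hw, if_pos (h.mpr hw)]
  · rw [if_neg hw, if_neg (fun h' => hw (h.mp h'))]

/-- equivariance of the logarithmic embedding -/
theorem logAll_unitsMap (σ : L ≃ₐ[K] L) (u : (𝓞 L)ˣ) :
    logAll L (Additive.ofMul (unitsMap K L σ u)) = act σ (logAll L (Additive.ofMul u)) := by
  funext w
  rw [act_apply, logAll_apply, logAll_apply, coe_unitsMap, mult_smul]
  congr 2

theorem unitsMap_mem_torsion (σ : L ≃ₐ[K] L) {u : (𝓞 L)ˣ} (hu : u ∈ torsion L) :
    unitsMap K L σ u ∈ torsion L := by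
  rw [← logAll_eq_zero_iff] at hu ⊢
  rw [logAll_unitsMap, hu]
  rfl

/-- the logarithmic embedding on units modulo torsion -/
noncomputable def logAllQ : Additive ((𝓞 L)ˣ ⧸ torsion L) →+ (InfinitePlace L → ℝ) :=
  MonoidHom.toAdditiveLeft <|
    QuotientGroup.lift (torsion L) (AddMonoidHom.toMultiplicativeRight (logAll L)) (fun u hu => by
      rw [MonoidHom.mem_ker, AddMonoidHom.toMultiplicativeRight_apply_apply, ofAdd_eq_one]
      exact (logAll_eq_zero_iff L u).mpr hu)

@[simp] theorem logAllQ_mk (u : (𝓞 L)ˣ) :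
    logAllQ L (Additive.ofMul (QuotientGroup.mk u)) = logAll L (Additive.ofMul u) := rfl

theorem logAllQ_injective : Function.Injective (logAllQ L) := by
  rw [injective_iff_map_eq_zero]
  intro x hx
  induction x using Additive.rec with | ofMul x => ?_
  induction x using QuotientGroup.induction_on with | H u => ?_
  rw [logAllQ_mk, logAll_eq_zero_iff] at hx
  show Additive.ofMul (QuotientGroup.mk u) = Additive.ofMul 1
  rw [(QuotientGroup.eq_one_iff u).mpr hx]

theorem sum_logAllQ (x : Additive ((𝓞 L)ˣ ⧸ torsion L)) : ∑ w, logAllQ L x w = 0 := by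
  induction x using Additive.rec with | ofMul x => ?_
  induction x using QuotientGroup.induction_on with | H u => ?_
  rw [logAllQ_mk]
  exact sum_logAll L _

/-- the Galois action on units modulo torsion -/
noncomputable def unitsMapQ (σ : L ≃ₐ[K] L) :
    Additive ((𝓞 L)ˣ ⧸ torsion L) →+ Additive ((𝓞 L)ˣ ⧸ torsion L) :=
  MonoidHom.toAdditive <|
    QuotientGroup.map (torsion L) (torsion L) (unitsMap K L σ) (fun _ hu =>
      unitsMap_mem_torsion K L σ hu)

@[simp] theorem unitsMapQ_mk (σ : L ≃ₐ[K] L) (u : (𝓞 L)ˣ) :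
    unitsMapQ K L σ (Additive.ofMul (QuotientGroup.mk u))
      = Additive.ofMul (QuotientGroup.mk (unitsMap K L σ u)) := rfl

theorem logAllQ_unitsMapQ (σ : L ≃ₐ[K] L) (x : Additive ((𝓞 L)ˣ ⧸ torsion L)) :
    logAllQ L (unitsMapQ K L σ x) = act σ (logAllQ L x) := by
  induction x using Additive.rec with | ofMul x => ?_
  induction x using QuotientGroup.induction_on with | H u => ?_
  rw [unitsMapQ_mk, logAllQ_mk, logAllQ_mk, logAll_unitsMap]

/-- the all-ones vector -/
def ones : InfinitePlace L → ℝ := fun _ => 1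

/-- units modulo torsion, times `ℤ` -/
abbrev UZ : Type _ := Additive ((𝓞 L)ˣ ⧸ torsion L) × ℤ

/-- the embedding of `(𝓞 L)ˣ/μ × ℤ` into `ℝ^{InfinitePlace L}` -/
noncomputable def iotaUZ : UZ L →+ (InfinitePlace L → ℝ) :=
  (logAllQ L).coprod ((zmultiplesHom (InfinitePlace L → ℝ)) (ones L))

theorem iotaUZ_apply (x : Additive ((𝓞 L)ˣ ⧸ torsion L)) (k : ℤ) :
    iotaUZ L (x, k) = logAllQ L x + k • ones L := by
  simp [iotaUZ]

theorem sum_iotaUZ (x : Additive ((𝓞 L)ˣ ⧸ torsion L)) (k : ℤ) :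
    ∑ w, iotaUZ L (x, k) w = k * Fintype.card (InfinitePlace L) := by
  rw [iotaUZ_apply]
  have h1 : ∀ w, (logAllQ L x + k • ones L) w = logAllQ L x w + (k : ℝ) := by
    intro w
    simp [ones]
  rw [Finset.sum_congr rfl fun w _ => h1 w, Finset.sum_add_distrib, sum_logAllQ, zero_add,
    Finset.sum_const, Finset.card_univ, nsmul_eq_mul, mul_comm]

theorem iotaUZ_injective : Function.Injective (iotaUZ L) := by
  rw [injective_iff_map_eq_zero]
  rintro ⟨x, k⟩ h
  have h1 := sum_iotaUZ L x k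
  rw [h] at h1
  simp only [Pi.zero_apply, Finset.sum_const_zero] at h1
  have hcard : (Fintype.card (InfinitePlace L) : ℝ) ≠ 0 := by
    exact_mod_cast Fintype.card_ne_zero
  have hk : k = 0 := by
    have := (mul_eq_zero.mp h1.symm).resolve_right hcard
    exact_mod_cast this
  subst hk
  rw [iotaUZ_apply, zero_smul, add_zero] at h
  have hx : x = 0 := logAllQ_injective L (by rw [h, map_zero])
  rw [hx]
  rfl

/-- the Galois action on `(𝓞 L)ˣ/μ × ℤ` (trivial on `ℤ`) -/
noncomputable def rhoUZ (σ : L ≃ₐ[K] L) : UZ L →+ UZ L :=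
  (unitsMapQ K L σ).prodMap (AddMonoidHom.id ℤ)

theorem act_ones (σ : L ≃ₐ[K] L) : act σ (ones L) = ones L := rfl

theorem iotaUZ_rhoUZ (σ : L ≃ₐ[K] L) (a : UZ L) :
    iotaUZ L (rhoUZ K L σ a) = act σ (iotaUZ L a) := by
  obtain ⟨x, k⟩ := a
  show iotaUZ L (unitsMapQ K L σ x, k) = _
  rw [iotaUZ_apply, iotaUZ_apply, logAllQ_unitsMapQ, act_add]
  congr 1

/-- local instance making `Module ℤ (Additive ((𝓞 L)ˣ ⧸ torsion L))` synthesizable downstream -/
noncomputable local instance instCommGroupUnitsAux : CommGroup (𝓞 L)ˣ := Units.instCommGroupUnits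

/-- units modulo torsion are free abelian of rank `Units.rank L` -/
noncomputable def equivQ : Additive ((𝓞 L)ˣ ⧸ torsion L) ≃+ (Fin (Units.rank L) → ℤ) :=
  (basisModTorsion L).equivFun.toAddEquiv

/-- `(𝓞 L)ˣ/μ × ℤ` is free abelian of rank `#InfinitePlace L` -/
noncomputable def equivUZ : UZ L ≃+ (Option (Fin (Units.rank L)) → ℤ) :=
  ((AddEquiv.prodCongr (equivQ L) (AddEquiv.refl ℤ)).trans AddEquiv.prodComm).trans
    (LinearEquiv.piOptionEquivProd ℤ
      (M := fun _ : Option (Fin (Units.rank L)) => ℤ)).toAddEquiv.symm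

theorem card_option_rank :
    Fintype.card (Option (Fin (Units.rank L))) = Fintype.card (InfinitePlace L) := by
  rw [Fintype.card_option, Fintype.card_fin, Units.rank]
  have : 0 < Fintype.card (InfinitePlace L) := Fintype.card_pos
  omega

open dirichletUnitTheorem in
theorem span_range_iotaUZ : Submodule.span ℝ (Set.range (iotaUZ L)) = ⊤ := by
  classical
  rw [eq_top_iff]
  intro v _
  have hones : ones L ∈ Submodule.span ℝ (Set.range (iotaUZ L)) :=
    Submodule.subset_span ⟨(0, 1), by rw [iotaUZ_apply]; simp⟩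
  have hlog : ∀ u : (𝓞 L)ˣ,
      logAll L (Additive.ofMul u) ∈ Submodule.span ℝ (Set.range (iotaUZ L)) := fun u =>
    Submodule.subset_span ⟨(Additive.ofMul (QuotientGroup.mk u), 0), by
      rw [iotaUZ_apply]; simp⟩
  -- restriction to the places different from `w₀`
  let r : (InfinitePlace L → ℝ) →ₗ[ℝ] logSpace L :=
    LinearMap.funLeft ℝ ℝ (Subtype.val : {w : InfinitePlace L // w ≠ w₀} → InfinitePlace L)
  have hr : ∀ u : (𝓞 L)ˣ, r (logAll L (Additive.ofMul u)) = logEmbedding L (Additive.ofMul u) :=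
    fun u => rfl
  have hcard : (Fintype.card (InfinitePlace L) : ℝ) ≠ 0 := by
    exact_mod_cast Fintype.card_ne_zero
  set c : ℝ := (∑ w, v w) / Fintype.card (InfinitePlace L) with hc
  set v' : InfinitePlace L → ℝ := v - c • ones L with hv'
  have hv'sum : ∑ w, v' w = 0 := by
    have h1 : ∀ w, v' w = v w - c := by
      intro w
      simp [hv', ones]
    rw [Finset.sum_congr rfl fun w _ => h1 w, Finset.sum_sub_distrib, Finset.sum_const,
      Finset.card_univ, nsmul_eq_mul, hc]
    field_simp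
    ring
  have h1 : r v' ∈ Submodule.span ℝ (unitLattice L : Set (logSpace L)) := by
    rw [unitLattice_span_eq_top]; trivial
  have h2 : (unitLattice L : Set (logSpace L))
      = r '' (Set.range fun u : (𝓞 L)ˣ => logAll L (Additive.ofMul u)) := by
    ext z
    constructor
    · rintro ⟨x, -, rfl⟩
      exact ⟨logAll L x, ⟨Additive.toMul x, rfl⟩, rfl⟩
    · rintro ⟨_, ⟨u, rfl⟩, rfl⟩
      exact ⟨Additive.ofMul u, trivial, rfl⟩
  rw [h2, ← Submodule.map_span] at h1
  obtain ⟨y, hy, hry⟩ := h1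
  have hysum : ∑ w, y w = 0 := by
    refine Submodule.span_induction (p := fun y _ => ∑ w, y w = 0) ?_ ?_ ?_ ?_ hy
    · rintro _ ⟨u, rfl⟩
      exact sum_logAll L _
    · simp
    · intro a b _ _ ha hb
      simp only [Pi.add_apply, Finset.sum_add_distrib, ha, hb, add_zero]
    · intro t a _ ha
      simp only [Pi.smul_apply, smul_eq_mul, ← Finset.mul_sum, ha, mul_zero]
  have hyv : y = v' := by
    have hne : ∀ w : InfinitePlace L, w ≠ w₀ → y w = v' w := fun w hw =>
      congrFun hry ⟨w, hw⟩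
    funext w
    by_cases hw : w = w₀
    · subst hw
      have e1 := Fintype.sum_eq_add_sum_subtype_ne y (w₀ : InfinitePlace L)
      have e2 := Fintype.sum_eq_add_sum_subtype_ne v' (w₀ : InfinitePlace L)
      rw [hysum] at e1
      rw [hv'sum] at e2
      have e3 : ∑ i : {w : InfinitePlace L // w ≠ w₀}, y i = ∑ i : {w : InfinitePlace L // w ≠ w₀}, v' i :=
        Finset.sum_congr rfl fun i _ => hne i i.2
      linarith
    · exact hne w hw
  have hyW : y ∈ Submodule.span ℝ (Set.range (iotaUZ L)) := by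
    refine Submodule.span_le.mpr ?_ hy
    rintro _ ⟨u, rfl⟩
    exact hlog u
  have : v = y + c • ones L := by
    rw [hyv, hv']; abel
  rw [this]
  exact Submodule.add_mem _ hyW (Submodule.smul_mem _ _ hones)

/-- **Units as a Galois lattice.** For an extension `L/K` of number fields with automorphism group
`G = Gal(L/K)`, the lattice `(𝓞 L)ˣ/μ × ℤ` contains a `G`-stable sublattice of finite index which
is isomorphic to the permutation lattice `ℤ[InfinitePlace L]`. -/
theorem exists_perm_embedding_units [FiniteDimensional K L] :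
    ∃ ψ : (InfinitePlace L → ℤ) →+ UZ L, Function.Injective ψ ∧
      (∀ (σ : L ≃ₐ[K] L) (f : InfinitePlace L → ℤ),
        ψ (fun w => f (σ⁻¹ • w)) = rhoUZ K L σ (ψ f)) ∧ ψ.range.FiniteIndex := by
  classical
  exact exists_perm_embedding (G := L ≃ₐ[K] L) (equivUZ L) (card_option_rank L) (rhoUZ K L)
    (iotaUZ L) (iotaUZ_injective L) (iotaUZ_rhoUZ K L) (span_range_iotaUZ L)

/-! ### Bookkeeping for consumers -/

theorem unitsMap_one : unitsMap K L 1 = MonoidHom.id _ := by
  ext u
  rfl

theorem unitsMap_mul (σ τ : L ≃ₐ[K] L) :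
    unitsMap K L (σ * τ) = (unitsMap K L σ).comp (unitsMap K L τ) := by
  ext u
  rfl

/-- the projection `(𝓞 L)ˣ → (𝓞 L)ˣ/μ`, additively -/
noncomputable def mkQ : Additive (𝓞 L)ˣ →+ Additive ((𝓞 L)ˣ ⧸ torsion L) :=
  MonoidHom.toAdditive (QuotientGroup.mk' (torsion L))

@[simp] theorem mkQ_apply (u : (𝓞 L)ˣ) :
    mkQ L (Additive.ofMul u) = Additive.ofMul (QuotientGroup.mk u) := rfl

theorem mkQ_surjective : Function.Surjective (mkQ L) := by
  intro x
  induction x using Additive.rec with | ofMul x => ?_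
  induction x using QuotientGroup.induction_on with | H u => ?_
  exact ⟨Additive.ofMul u, rfl⟩

theorem mkQ_eq_zero_iff (u : (𝓞 L)ˣ) : mkQ L (Additive.ofMul u) = 0 ↔ u ∈ torsion L := by
  rw [mkQ_apply]
  show Additive.ofMul (QuotientGroup.mk u) = Additive.ofMul 1 ↔ _
  rw [Additive.ofMul.injective.eq_iff, QuotientGroup.eq_one_iff]

/-- the Galois action on units, additively -/
noncomputable def unitsMapA (σ : L ≃ₐ[K] L) : Additive (𝓞 L)ˣ →+ Additive (𝓞 L)ˣ :=
  MonoidHom.toAdditive (unitsMap K L σ)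

theorem mkQ_unitsMapA (σ : L ≃ₐ[K] L) (x : Additive (𝓞 L)ˣ) :
    mkQ L (unitsMapA K L σ x) = unitsMapQ K L σ (mkQ L x) := rfl

theorem unitsMapQ_one (x : Additive ((𝓞 L)ˣ ⧸ torsion L)) : unitsMapQ K L 1 x = x := by
  induction x using Additive.rec with | ofMul x => ?_
  induction x using QuotientGroup.induction_on with | H u => ?_
  rfl

theorem unitsMapQ_mul (σ τ : L ≃ₐ[K] L) (x : Additive ((𝓞 L)ˣ ⧸ torsion L)) :
    unitsMapQ K L (σ * τ) x = unitsMapQ K L σ (unitsMapQ K L τ x) := by
  induction x using Additive.rec with | ofMul x => ?_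
  induction x using QuotientGroup.induction_on with | H u => ?_
  rfl

theorem rhoUZ_apply (σ : L ≃ₐ[K] L) (x : Additive ((𝓞 L)ˣ ⧸ torsion L)) (k : ℤ) :
    rhoUZ K L σ (x, k) = (unitsMapQ K L σ x, k) := rfl

theorem rhoUZ_one (a : UZ L) : rhoUZ K L 1 a = a := by
  obtain ⟨x, k⟩ := a
  rw [rhoUZ_apply, unitsMapQ_one]

theorem rhoUZ_mul (σ τ : L ≃ₐ[K] L) (a : UZ L) :
    rhoUZ K L (σ * τ) a = rhoUZ K L σ (rhoUZ K L τ a) := by
  obtain ⟨x, k⟩ := a
  rw [rhoUZ_apply, rhoUZ_apply, rhoUZ_apply, unitsMapQ_mul]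

end Fermat.Agent.CFT.SUnit.UnitsGalois

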