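import Mathlib
import Fermat.Agent.CFT.SUnit.UnitsGalois
import Fermat.Agent.CFT.C3.SUnitHerbrand

/-!
# PROJECT C, slice C3 (general `G`): the `T`-units of a Galois extension as a Galois lattice

`L/K` a Galois extension of number fields with group `G`, `T` a finite set of primes of `K`,
`T_L = above K L T` the primes of `L` above `T` (`TUnits`, `above`, `galT`, `galAdd` are those of
`CFT/C3/SUnitRank` and `CFT/C3/SUnitHerbrand`).

* `primeAct K L σ w = σ(w)`: the Galois action on the primes of `L`; `XT K L T` the `G`-set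
  `T_L ⊔ InfinitePlace L`, `xAct`, `xPerm` the action of `σ` on it.
* `logT K L T : Additive (T_L-units) →+ (XT → ℝ)`: the logarithmic embedding with all places of
  `T_L` and all infinite places as coordinates; `sum_logT` (product formula), `logT_galAdd`
  (equivariance), `logT_eq_zero_iff` (kernel = roots of unity).
* `QT K L T = Additive (T_L-units) ⧸ torsT` (roots of unity divided out), `galQ` the Galois action,
  `logTQ` (injective); `UZT = QT × ℤ`, `iotaT` (injective, spanning), `rhoT` the Galois action.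
* `exists_perm_embedding_TUnits`: `UZT` contains a `G`-stable sublattice of finite index isomorphic
  to the permutation lattice `ℤ[XT]`.
-/

set_option autoImplicit false
set_option linter.unusedSectionVars false

noncomputable section

namespace Fermat.Agent.CFT.SUnit.TUnitsLattice

open NumberField NumberField.InfinitePlace NumberField.Units IsDedekindDomain Module
open Fermat.Agent.CFT.SUnit.PermLattice Fermat.Agent.CFT.SUnit.UnitsGalois
open Fermat.Agent.CFT.C3.SUnitRank Fermat.Agent.CFT.C3.GaloisVal Fermat.Agent.CFT.C3.SUnitHerbrand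

variable (K L : Type*) [Field K] [NumberField K] [Field L] [NumberField L] [Algebra K L]
  [IsGalois K L]

/-! ### The Galois action on the primes of `L` -/

theorem galE_mul (σ τ : L ≃ₐ[K] L) (r : 𝓞 L) :
    galE K L (σ * τ) r = galE K L σ (galE K L τ r) := by
  apply RingOfIntegers.coe_injective
  rw [← galE_spec, ← galE_spec, ← galE_spec]
  rfl

theorem galE_one (r : 𝓞 L) : galE K L 1 r = r := by
  apply RingOfIntegers.coe_injective
  rw [← galE_spec]
  rfl

/-- The image `σ(w)` of a prime `w` of `L` under `σ`. -/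
def primeAct (σ : L ≃ₐ[K] L) (w : HeightOneSpectrum (𝓞 L)) : HeightOneSpectrum (𝓞 L) :=
  comapEquiv (galE K L σ⁻¹) w

theorem mem_primeAct (σ : L ≃ₐ[K] L) (w : HeightOneSpectrum (𝓞 L)) (r : 𝓞 L) :
    r ∈ (primeAct K L σ w).asIdeal ↔ galE K L σ⁻¹ r ∈ w.asIdeal := Iff.rfl

theorem primeAct_one (w : HeightOneSpectrum (𝓞 L)) : primeAct K L 1 w = w := by
  apply HeightOneSpectrum.ext
  ext r
  rw [mem_primeAct, inv_one, galE_one]

theorem primeAct_mul (σ τ : L ≃ₐ[K] L) (w : HeightOneSpectrum (𝓞 L)) :
    primeAct K L (σ * τ) w = primeAct K L σ (primeAct K L τ w) := by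
  apply HeightOneSpectrum.ext
  ext r
  rw [mem_primeAct, mem_primeAct, mem_primeAct, mul_inv_rev, galE_mul]

theorem below_primeAct (σ : L ≃ₐ[K] L) (w : HeightOneSpectrum (𝓞 L)) :
    below K L (primeAct K L σ w) = below K L w :=
  below_comapEquiv K L σ⁻¹ w

/-- `v_{σ w}(σ x) = v_w(x)` -/
theorem valuation_primeAct (σ : L ≃ₐ[K] L) (w : HeightOneSpectrum (𝓞 L)) (x : L) :
    (primeAct K L σ w).valuation L x = w.valuation L (σ⁻¹ x) :=
  (valuation_gal K L σ⁻¹ w x).symm

theorem absNorm_primeAct (σ : L ≃ₐ[K] L) (w : HeightOneSpectrum (𝓞 L)) :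
    Ideal.absNorm (primeAct K L σ w).asIdeal = Ideal.absNorm w.asIdeal := by
  rw [Ideal.absNorm_apply, Ideal.absNorm_apply, Submodule.cardQuot_apply, Submodule.cardQuot_apply]
  have h : (primeAct K L σ w).asIdeal = w.asIdeal.comap (galE K L σ⁻¹) := rfl
  refine Nat.card_congr ?_
  exact (Ideal.quotientEquiv (primeAct K L σ w).asIdeal w.asIdeal (galE K L σ⁻¹) (by
    rw [h]
    exact (Ideal.map_comap_of_surjective (galE K L σ⁻¹ : 𝓞 L →+* 𝓞 L)
      (galE K L σ⁻¹).surjective w.asIdeal).symm)).toEquiv

variable (T : Finset (HeightOneSpectrum (𝓞 K)))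

/-! ### The `G`-set of places: primes above `T` and infinite places -/

/-- The index set: primes of `L` above `T` together with the infinite places of `L`. -/
abbrev XT : Type _ := {w : HeightOneSpectrum (𝓞 L) // w ∈ above K L T} ⊕ InfinitePlace L

/-- The action of `σ` on the primes above `T`. -/
def primeActT (σ : L ≃ₐ[K] L) (w : {w : HeightOneSpectrum (𝓞 L) // w ∈ above K L T}) :
    {w : HeightOneSpectrum (𝓞 L) // w ∈ above K L T} :=
  ⟨primeAct K L σ w.1, by
    rw [mem_above, below_primeAct]
    exact (mem_above K L T).mp w.2⟩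

@[simp] theorem primeActT_coe (σ : L ≃ₐ[K] L)
    (w : {w : HeightOneSpectrum (𝓞 L) // w ∈ above K L T}) :
    (primeActT K L T σ w : HeightOneSpectrum (𝓞 L)) = primeAct K L σ w.1 := rfl

/-- The action of `σ` on the set of places `XT`. -/
def xAct (σ : L ≃ₐ[K] L) : XT K L T → XT K L T :=
  Sum.map (primeActT K L T σ) (fun w => σ • w)

@[simp] theorem xAct_inl (σ : L ≃ₐ[K] L) (w : {w : HeightOneSpectrum (𝓞 L) // w ∈ above K L T}) :
    xAct K L T σ (Sum.inl w) = Sum.inl (primeActT K L T σ w) := rfl

@[simp] theorem xAct_inr (σ : L ≃ₐ[K] L) (w : InfinitePlace L) :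
    xAct K L T σ (Sum.inr w) = Sum.inr (σ • w) := rfl

theorem xAct_one (x : XT K L T) : xAct K L T 1 x = x := by
  rcases x with w | w
  · rw [xAct_inl]
    congr 1
    exact Subtype.ext (primeAct_one K L w.1)
  · rw [xAct_inr, one_smul]

theorem xAct_mul (σ τ : L ≃ₐ[K] L) (x : XT K L T) :
    xAct K L T (σ * τ) x = xAct K L T σ (xAct K L T τ x) := by
  rcases x with w | w
  · rw [xAct_inl, xAct_inl, xAct_inl]
    congr 1
    exact Subtype.ext (primeAct_mul K L σ τ w.1)
  · rw [xAct_inr, xAct_inr, xAct_inr, mul_smul]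

/-- The action of `Gal(L/K)` on `XT` (not a global instance). -/
@[reducible] def mulActionXT : MulAction (L ≃ₐ[K] L) (XT K L T) where
  smul σ x := xAct K L T σ x
  one_smul := xAct_one K L T
  mul_smul := xAct_mul K L T

/-- The action of `σ` on `XT` as a permutation. -/
def xPerm (σ : L ≃ₐ[K] L) : Equiv.Perm (XT K L T) where
  toFun := xAct K L T σ
  invFun := xAct K L T σ⁻¹
  left_inv x := by rw [← xAct_mul, inv_mul_cancel, xAct_one]
  right_inv x := by rw [← xAct_mul, mul_inv_cancel, xAct_one]

@[simp] theorem xPerm_apply (σ : L ≃ₐ[K] L) (x : XT K L T) :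
    xPerm K L T σ x = xAct K L T σ x := rfl

@[simp] theorem xPerm_symm_apply (σ : L ≃ₐ[K] L) (x : XT K L T) :
    (xPerm K L T σ).symm x = xAct K L T σ⁻¹ x := rfl

theorem xPerm_pow (σ : L ≃ₐ[K] L) (j : ℕ) (x : XT K L T) :
    ((xPerm K L T σ) ^ j) x = xAct K L T (σ ^ j) x := by
  induction j generalizing x with
  | zero => rw [pow_zero, pow_zero, xAct_one]; rfl
  | succ j ih => rw [pow_succ, pow_succ, Equiv.Perm.mul_apply, ih, xPerm_apply, xAct_mul]

/-! ### The logarithmic embedding of the `T`-units -/

/-- the abbreviation for the additive group of `T_L`-units -/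
abbrev AT : Type _ := Additive (TUnits L (above K L T))

/-- The logarithmic embedding of the `T_L`-units, with all places in `T_L` and all infinite
places as coordinates. -/
def logT : AT K L T →+ (XT K L T → ℝ) where
  toFun x := Sum.elim
    (fun w => (valT L (above K L T) x w : ℝ) * Real.log (Ideal.absNorm w.1.asIdeal))
    (fun w => mult w * Real.log (w (((Additive.toMul x : TUnits L (above K L T)) : Lˣ) : L)))
  map_zero' := by
    funext y
    rcases y with w | w
    · simp
    · simp
  map_add' x y := by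
    funext z
    rcases z with w | w
    · simp only [map_add, Pi.add_apply, Int.cast_add, add_mul, Sum.elim_inl]
    · simp only [toMul_add, Subgroup.coe_mul, Units.val_mul, map_mul, Pi.add_apply, Sum.elim_inr]
      rw [Real.log_mul, mul_add]
      · exact (map_ne_zero _).mpr (Units.ne_zero _)
      · exact (map_ne_zero _).mpr (Units.ne_zero _)

theorem logT_inl (x : AT K L T) (w : {w : HeightOneSpectrum (𝓞 L) // w ∈ above K L T}) :
    logT K L T x (Sum.inl w) =
      (valT L (above K L T) x w : ℝ) * Real.log (Ideal.absNorm w.1.asIdeal) := rfl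

theorem logT_inr (x : AT K L T) (w : InfinitePlace L) :
    logT K L T x (Sum.inr w) =
      mult w * Real.log (w (((Additive.toMul x : TUnits L (above K L T)) : Lˣ) : L)) := rfl

theorem toNNReal_eq_zpow_log {e : NNReal} (he : e ≠ 0) (x : WithZero (Multiplicative ℤ))
    (hx : x ≠ 0) : WithZeroMulInt.toNNReal he x = e ^ (WithZero.log x) := by
  rw [WithZeroMulInt.toNNReal_neg_apply he hx]
  congr 1
  conv_rhs => rw [← WithZero.coe_unzero hx]
  rfl

/-- The `w`-adic absolute value of a nonzero `x`, for a finite prime `w`. -/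
theorem norm_embedding_eq_zpow (w : HeightOneSpectrum (𝓞 L)) (x : L) (hx : x ≠ 0) :
    ‖FinitePlace.embedding w x‖ =
      (Ideal.absNorm w.asIdeal : ℝ) ^ (WithZero.log (w.valuation L x)) := by
  rw [FinitePlace.norm_embedding', toNNReal_eq_zpow_log _ _ ((Valuation.ne_zero_iff _).mpr hx)]
  push_cast
  rfl

theorem log_norm_embedding (w : HeightOneSpectrum (𝓞 L)) (x : L) (hx : x ≠ 0) :
    Real.log ‖FinitePlace.embedding w x‖ =
      ((WithZero.log (w.valuation L x) : ℤ) : ℝ) * Real.log (Ideal.absNorm w.asIdeal) := by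
  rw [norm_embedding_eq_zpow L w x hx, Real.log_zpow]

/-- **Product formula** for `T`-units: the coordinates of `logT x` sum to zero. -/
theorem sum_logT (x : AT K L T) : ∑ y, logT K L T x y = 0 := by
  classical
  set u : L := (((Additive.toMul x : TUnits L (above K L T)) : Lˣ) : L) with hu
  have hu0 : u ≠ 0 := Units.ne_zero _
  have hpf := prod_abs_eq_one hu0
  have h1 : ∏ᶠ w : FinitePlace L, w u =
      ∏ᶠ v : HeightOneSpectrum (𝓞 L), ‖FinitePlace.embedding v u‖ := by
    rw [← finprod_comp_equiv FinitePlace.equivHeightOneSpectrum.symm]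
    simp only [FinitePlace.equivHeightOneSpectrum_symm_apply]
  have h2 : ∏ᶠ v : HeightOneSpectrum (𝓞 L), ‖FinitePlace.embedding v u‖ =
      ∏ v ∈ above K L T, ‖FinitePlace.embedding v u‖ := by
    apply finprod_eq_prod_of_mulSupport_subset
    intro v hv
    by_contra hvT
    apply hv
    have h3 : v.valuation L u = 1 := (Additive.toMul x : TUnits L (above K L T)).2 v hvT
    show ‖FinitePlace.embedding v u‖ = 1
    rw [FinitePlace.norm_embedding', h3, map_one]
    rfl
  rw [h1, h2] at hpf
  have hpos : ∀ w : InfinitePlace L, w u ^ w.mult ≠ 0 := fun w =>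
    pow_ne_zero _ ((map_ne_zero _).mpr hu0)
  have hpos' : ∀ v ∈ above K L T, ‖FinitePlace.embedding v u‖ ≠ 0 := fun v _ =>
    norm_ne_zero_iff.mpr ((map_ne_zero _).mpr hu0)
  have hlog := congrArg Real.log hpf
  rw [Real.log_one, Real.log_mul (Finset.prod_ne_zero_iff.mpr fun w _ => hpos w)
    (Finset.prod_ne_zero_iff.mpr hpos'), Real.log_prod (fun w _ => hpos w),
    Real.log_prod hpos'] at hlog
  rw [Fintype.sum_sum_type, add_comm, ← hlog]
  congr 1
  · refine Finset.sum_congr rfl fun w _ => ?_
    rw [logT_inr, Real.log_pow]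
  · rw [← Finset.sum_coe_sort (above K L T)]
    refine Finset.sum_congr rfl fun w _ => ?_
    rw [logT_inl, log_norm_embedding L w.1 u hu0]
    rfl

/-- Equivariance of the logarithmic embedding. -/
theorem logT_galAdd (σ : L ≃ₐ[K] L) (x : AT K L T) (y : XT K L T) :
    logT K L T (galAdd K L T σ x) y = logT K L T x (xAct K L T σ⁻¹ y) := by
  rcases y with w | w
  · rw [xAct_inl, logT_inl, logT_inl, primeActT_coe, absNorm_primeAct, valT_apply, valT_apply,
      primeActT_coe, valuation_primeAct, inv_inv]
    rfl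
  · rw [xAct_inr, logT_inr, logT_inr, UnitsGalois.mult_smul]
    congr 2

theorem log_absNorm_pos (w : HeightOneSpectrum (𝓞 L)) :
    0 < Real.log (Ideal.absNorm w.asIdeal) := by
  apply Real.log_pos
  exact_mod_cast HeightOneSpectrum.one_lt_absNorm w

/-- The kernel of the logarithmic embedding consists of the roots of unity. -/
theorem logT_eq_zero_iff (x : AT K L T) :
    logT K L T x = 0 ↔
      ∃ u ∈ torsion L, x = Additive.ofMul (unitsToT L (above K L T) u) := by
  constructor
  · intro h
    have hval : valT L (above K L T) x = 0 := by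
      funext w
      have h1 := congrFun h (Sum.inl w)
      rw [logT_inl, Pi.zero_apply] at h1
      have h2 := (mul_eq_zero.mp h1).resolve_right (log_absNorm_pos L w.1).ne'
      rw [Pi.zero_apply]
      exact_mod_cast h2
    have hker : x ∈ (LinearMap.ker (valT L (above K L T)) : Set (AT K L T)) :=
      LinearMap.mem_ker.mpr hval
    rw [ker_valT_eq] at hker
    obtain ⟨u, rfl⟩ := hker
    refine ⟨Additive.toMul u, ?_, rfl⟩
    rw [← logAll_eq_zero_iff]
    funext w
    have h1 := congrFun h (Sum.inr w)
    rw [logT_inr, Pi.zero_apply] at h1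
    rw [logAll_apply, Pi.zero_apply]
    exact h1
  · rintro ⟨u, hu, rfl⟩
    have h0 := (logAll_eq_zero_iff L u).mpr hu
    funext y
    rcases y with w | w
    · rw [logT_inl, valT_apply]
      simp only [toMul_ofMul, unitsToT_coe, valuation_unit_eq_one, WithZero.log_one, Int.cast_zero,
        zero_mul, Pi.zero_apply]
    · rw [logT_inr]
      have h1 := congrFun h0 w
      rw [logAll_apply, Pi.zero_apply] at h1
      exact h1

/-! ### `T`-units modulo roots of unity -/

/-- `logT` as a `ℤ`-linear map. -/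
def logTLin : AT K L T →ₗ[ℤ] (XT K L T → ℝ) := (logT K L T).toIntLinearMap

@[simp] theorem logTLin_apply (x : AT K L T) : logTLin K L T x = logT K L T x := rfl

/-- The roots of unity inside the `T`-units: the kernel of the logarithmic embedding. -/
def torsT : Submodule ℤ (AT K L T) := LinearMap.ker (logTLin K L T)

theorem mem_torsT (x : AT K L T) : x ∈ torsT K L T ↔ logT K L T x = 0 := LinearMap.mem_ker

instance finite_torsT : Finite (torsT K L T) := by
  have h : (torsT K L T : Set (AT K L T)) ⊆
      (fun u : (𝓞 L)ˣ => (Additive.ofMul (unitsToT L (above K L T) u) : AT K L T)) ''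
        (torsion L : Set (𝓞 L)ˣ) := by
    intro x hx
    obtain ⟨u, hu, rfl⟩ := (logT_eq_zero_iff K L T x).mp ((mem_torsT K L T x).mp hx)
    exact ⟨u, hu, rfl⟩
  have hfin : (torsion L : Set (𝓞 L)ˣ).Finite :=
    (Set.finite_coe_iff (s := (torsion L : Set (𝓞 L)ˣ))).mp (inferInstanceAs (Finite (torsion L)))
  exact (Set.Finite.subset (Set.Finite.image _ hfin) h).to_subtype

theorem finrank_torsT : finrank ℤ (torsT K L T) = 0 := by
  rw [Module.finrank_eq_zero_iff]
  intro x
  refine ⟨(Nat.card (torsT K L T) : ℤ), ?_, ?_⟩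
  · exact_mod_cast (Nat.card_pos (α := torsT K L T)).ne'
  · rw [natCast_zsmul]
    exact card_nsmul_eq_zero'

/-- `T`-units modulo roots of unity. -/
abbrev QT : Type _ := AT K L T ⧸ torsT K L T

theorem finrank_QT : finrank ℤ (QT K L T) = Units.rank L + (above K L T).card := by
  have h := Submodule.finrank_quotient_add_finrank (torsT K L T)
  rw [finrank_torsT, add_zero, finrank_TUnits] at h
  exact h

/-- The logarithmic embedding on `T`-units modulo roots of unity. -/
def logTQ : QT K L T →ₗ[ℤ] (XT K L T → ℝ) :=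
  (torsT K L T).liftQ (logTLin K L T) le_rfl

@[simp] theorem logTQ_mk (x : AT K L T) :
    logTQ K L T (Submodule.Quotient.mk x) = logT K L T x := rfl

theorem logTQ_injective : Function.Injective (logTQ K L T) := by
  rw [← LinearMap.ker_eq_bot]
  exact Submodule.ker_liftQ_eq_bot _ _ _ le_rfl

theorem sum_logTQ (q : QT K L T) : ∑ y, logTQ K L T q y = 0 := by
  obtain ⟨x, rfl⟩ := Submodule.Quotient.mk_surjective _ q
  rw [logTQ_mk]
  exact sum_logT K L T x

instance isTorsionFree_QT : Module.IsTorsionFree ℤ (QT K L T) :=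
  Function.Injective.moduleIsTorsionFree (logTQ K L T) (logTQ_injective K L T)
    (fun r m => map_smul _ r m)

/-- The Galois action on the `T`-units, as a `ℤ`-linear map. -/
def galLin (σ : L ≃ₐ[K] L) : AT K L T →ₗ[ℤ] AT K L T := (galAdd K L T σ).toIntLinearMap

@[simp] theorem galLin_apply (σ : L ≃ₐ[K] L) (x : AT K L T) :
    galLin K L T σ x = galAdd K L T σ x := rfl

theorem galAdd_mem_torsT (σ : L ≃ₐ[K] L) {x : AT K L T} (hx : x ∈ torsT K L T) :
    galAdd K L T σ x ∈ torsT K L T := by
  rw [mem_torsT] at hx ⊢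
  funext y
  rw [logT_galAdd, hx]
  rfl

/-- The Galois action on the `T`-units modulo roots of unity. -/
def galQ (σ : L ≃ₐ[K] L) : QT K L T →ₗ[ℤ] QT K L T :=
  (torsT K L T).mapQ (torsT K L T) (galLin K L T σ) (fun _ hx => galAdd_mem_torsT K L T σ hx)

@[simp] theorem galQ_mk (σ : L ≃ₐ[K] L) (x : AT K L T) :
    galQ K L T σ (Submodule.Quotient.mk x) = Submodule.Quotient.mk (galAdd K L T σ x) := rfl

theorem logTQ_galQ (σ : L ≃ₐ[K] L) (q : QT K L T) (y : XT K L T) :
    logTQ K L T (galQ K L T σ q) y = logTQ K L T q (xAct K L T σ⁻¹ y) := by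
  obtain ⟨x, rfl⟩ := Submodule.Quotient.mk_surjective _ q
  rw [galQ_mk, logTQ_mk, logTQ_mk, logT_galAdd]

theorem galAdd_one (x : AT K L T) : galAdd K L T 1 x = x := by
  show Additive.ofMul (galT K L T 1 (Additive.toMul x)) = x
  rw [galT_one]
  rfl

theorem galAdd_mul (σ τ : L ≃ₐ[K] L) (x : AT K L T) :
    galAdd K L T (σ * τ) x = galAdd K L T σ (galAdd K L T τ x) := by
  show Additive.ofMul (galT K L T (σ * τ) (Additive.toMul x)) = _
  rw [galT_mul]
  rfl

theorem galQ_one (q : QT K L T) : galQ K L T 1 q = q := by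
  obtain ⟨x, rfl⟩ := Submodule.Quotient.mk_surjective _ q
  rw [galQ_mk, galAdd_one]

theorem galQ_mul (σ τ : L ≃ₐ[K] L) (q : QT K L T) :
    galQ K L T (σ * τ) q = galQ K L T σ (galQ K L T τ q) := by
  obtain ⟨x, rfl⟩ := Submodule.Quotient.mk_surjective _ q
  rw [galQ_mk, galQ_mk, galQ_mk, galAdd_mul]

/-! ### The lattice `T`-units modulo roots of unity, times `ℤ` -/

/-- The all-ones vector. -/
def onesT : XT K L T → ℝ := fun _ => 1

/-- `T`-units modulo roots of unity, times `ℤ`. -/
abbrev UZT : Type _ := QT K L T × ℤ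

/-- The embedding of `UZT` into `ℝ^XT`. -/
def iotaT : UZT K L T →+ (XT K L T → ℝ) :=
  (logTQ K L T).toAddMonoidHom.coprod ((zmultiplesHom (XT K L T → ℝ)) (onesT K L T))

theorem iotaT_apply (q : QT K L T) (k : ℤ) :
    iotaT K L T (q, k) = logTQ K L T q + k • onesT K L T := by
  simp [iotaT]

theorem iotaT_apply_apply (q : QT K L T) (k : ℤ) (y : XT K L T) :
    iotaT K L T (q, k) y = logTQ K L T q y + k := by
  rw [iotaT_apply]
  simp [onesT]

theorem sum_iotaT (q : QT K L T) (k : ℤ) :
    ∑ y, iotaT K L T (q, k) y = k * Fintype.card (XT K L T) := by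
  rw [Finset.sum_congr rfl fun y _ => iotaT_apply_apply K L T q k y, Finset.sum_add_distrib,
    sum_logTQ, zero_add, Finset.sum_const, Finset.card_univ, nsmul_eq_mul, mul_comm]

theorem card_XT_ne_zero : (Fintype.card (XT K L T) : ℝ) ≠ 0 := by
  have : Nonempty (XT K L T) := ⟨Sum.inr (Classical.arbitrary _)⟩
  exact_mod_cast Fintype.card_ne_zero

theorem iotaT_injective : Function.Injective (iotaT K L T) := by
  rw [injective_iff_map_eq_zero]
  rintro ⟨q, k⟩ h
  have h1 := sum_iotaT K L T q k
  rw [h] at h1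
  simp only [Pi.zero_apply, Finset.sum_const_zero] at h1
  have hk : k = 0 := by
    have := (mul_eq_zero.mp h1.symm).resolve_right (card_XT_ne_zero K L T)
    exact_mod_cast this
  subst hk
  rw [iotaT_apply, zero_smul, add_zero] at h
  have hq : q = 0 := logTQ_injective K L T (by rw [h, map_zero])
  rw [hq]
  rfl

/-- The Galois action on `UZT` (trivial on `ℤ`). -/
def rhoT (σ : L ≃ₐ[K] L) : UZT K L T →+ UZT K L T :=
  (galQ K L T σ).toAddMonoidHom.prodMap (AddMonoidHom.id ℤ)

theorem rhoT_apply (σ : L ≃ₐ[K] L) (q : QT K L T) (k : ℤ) :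
    rhoT K L T σ (q, k) = (galQ K L T σ q, k) := rfl

theorem iotaT_rhoT (σ : L ≃ₐ[K] L) (a : UZT K L T) (y : XT K L T) :
    iotaT K L T (rhoT K L T σ a) y = iotaT K L T a (xAct K L T σ⁻¹ y) := by
  obtain ⟨q, k⟩ := a
  rw [rhoT_apply, iotaT_apply_apply, iotaT_apply_apply, logTQ_galQ]

theorem rhoT_one (a : UZT K L T) : rhoT K L T 1 a = a := by
  obtain ⟨q, k⟩ := a
  rw [rhoT_apply, galQ_one]

theorem rhoT_mul (σ τ : L ≃ₐ[K] L) (a : UZT K L T) :
    rhoT K L T (σ * τ) a = rhoT K L T σ (rhoT K L T τ a) := by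
  obtain ⟨q, k⟩ := a
  rw [rhoT_apply, rhoT_apply, rhoT_apply, galQ_mul]

/-- `T`-units modulo roots of unity are free abelian of finite rank. -/
def equivQT : QT K L T ≃+ (Fin (finrank ℤ (QT K L T)) → ℤ) :=
  (Module.finBasis ℤ (QT K L T)).equivFun.toAddEquiv

/-- `UZT` is free abelian of rank `#XT`. -/
def equivUZT : UZT K L T ≃+ (Option (Fin (finrank ℤ (QT K L T))) → ℤ) :=
  ((AddEquiv.prodCongr (equivQT K L T) (AddEquiv.refl ℤ)).trans AddEquiv.prodComm).trans
    (LinearEquiv.piOptionEquivProd ℤ
      (M := fun _ : Option (Fin (finrank ℤ (QT K L T))) => ℤ)).toAddEquiv.symm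

theorem card_option_finrank :
    Fintype.card (Option (Fin (finrank ℤ (QT K L T)))) = Fintype.card (XT K L T) := by
  rw [Fintype.card_option, Fintype.card_fin, finrank_QT, Fintype.card_sum, Fintype.card_coe,
    Units.rank]
  have : 0 < Fintype.card (InfinitePlace L) := Fintype.card_pos
  omega

/-- The class of a unit of `𝓞 L` in `QT`. -/
def unitQ (u : (𝓞 L)ˣ) : QT K L T :=
  Submodule.Quotient.mk (Additive.ofMul (unitsToT L (above K L T) u))

theorem logTQ_unitQ_inl (u : (𝓞 L)ˣ) (w : {w : HeightOneSpectrum (𝓞 L) // w ∈ above K L T}) :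
    logTQ K L T (unitQ K L T u) (Sum.inl w) = 0 := by
  rw [unitQ, logTQ_mk, logT_inl, valT_apply]
  simp only [toMul_ofMul, unitsToT_coe, valuation_unit_eq_one, WithZero.log_one, Int.cast_zero,
    zero_mul]

theorem logTQ_unitQ_inr (u : (𝓞 L)ˣ) (w : InfinitePlace L) :
    logTQ K L T (unitQ K L T u) (Sum.inr w) = logAll L (Additive.ofMul u) w := rfl

theorem span_range_iotaT : Submodule.span ℝ (Set.range (iotaT K L T)) = ⊤ := by
  classical
  by_contra hne
  obtain ⟨f, hf0, hfW⟩ := Submodule.exists_le_ker_of_lt_top _ (lt_top_iff_ne_top.mpr hne)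
  have hvan : ∀ a : UZT K L T, f (iotaT K L T a) = 0 := fun a =>
    LinearMap.mem_ker.mp (hfW (Submodule.subset_span ⟨a, rfl⟩))
  -- coordinates of `f`
  set a : XT K L T → ℝ := fun y => f (fun j => if y = j then 1 else 0) with ha
  have hfa : ∀ z : XT K L T → ℝ, f z = ∑ y, z y * a y := fun z => by
    rw [LinearMap.pi_apply_eq_sum_univ f z]
    rfl
  have hcard : (Fintype.card (InfinitePlace L) : ℝ) ≠ 0 := by
    exact_mod_cast Fintype.card_ne_zero
  set c : ℝ := (∑ w : InfinitePlace L, a (Sum.inr w)) / Fintype.card (InfinitePlace L) with hc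
  -- the infinite coordinates of `f` are constant
  have hinf : ∀ w : InfinitePlace L, a (Sum.inr w) = c := by
    have hP : ∀ z : InfinitePlace L → ℝ, ∑ w, (a (Sum.inr w) - c) * z w = 0 := by
      intro z
      have hz : z ∈ Submodule.span ℝ (Set.range (iotaUZ L)) := by
        rw [span_range_iotaUZ]; trivial
      refine Submodule.span_induction
        (p := fun z _ => ∑ w, (a (Sum.inr w) - c) * z w = 0) ?_ ?_ ?_ ?_ hz
      · rintro _ ⟨⟨q', k⟩, rfl⟩
        induction q' using Additive.rec with | ofMul q' => ?_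
        induction q' using QuotientGroup.induction_on with | H u => ?_
        have h1 := hvan (unitQ K L T u, 0)
        rw [hfa, Fintype.sum_sum_type] at h1
        simp only [iotaT_apply_apply, logTQ_unitQ_inl, logTQ_unitQ_inr, Int.cast_zero, add_zero,
          zero_mul, Finset.sum_const_zero, zero_add] at h1
        have h2 := sum_logAll L (Additive.ofMul u)
        have h3 : ∀ w, (a (Sum.inr w) - c) * iotaUZ L (Additive.ofMul (QuotientGroup.mk u), k) w =
            logAll L (Additive.ofMul u) w * a (Sum.inr w) - c * logAll L (Additive.ofMul u) w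
              + k * (a (Sum.inr w) - c) := by
          intro w
          have h4 : iotaUZ L (Additive.ofMul (QuotientGroup.mk u), k) w =
              logAll L (Additive.ofMul u) w + (k : ℝ) := by
            rw [iotaUZ_apply]
            simp [UnitsGalois.ones]
          rw [h4]
          ring
        rw [Finset.sum_congr rfl fun w _ => h3 w, Finset.sum_add_distrib, Finset.sum_sub_distrib,
          h1, ← Finset.mul_sum, h2, ← Finset.mul_sum, Finset.sum_sub_distrib, Finset.sum_const,
          Finset.card_univ, nsmul_eq_mul, hc]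
        field_simp
        ring
      · simp
      · intro z₁ z₂ _ _ h1 h2
        simp only [Pi.add_apply, mul_add, Finset.sum_add_distrib, h1, h2, add_zero]
      · intro t z _ h1
        have : ∀ w, (a (Sum.inr w) - c) * (t • z) w = t * ((a (Sum.inr w) - c) * z w) := by
          intro w
          simp only [Pi.smul_apply, smul_eq_mul]
          ring
        rw [Finset.sum_congr rfl fun w _ => this w, ← Finset.mul_sum, h1, mul_zero]
    intro w
    have h1 := hP (Pi.single w 1)
    rw [Finset.sum_eq_single w] at h1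
    · rw [Pi.single_eq_same, mul_one] at h1
      linarith
    · intro w' _ hw'
      rw [Pi.single_eq_of_ne hw', mul_zero]
    · intro h
      exact absurd (Finset.mem_univ w) h
  -- the finite coordinates equal the same constant
  have hfin : ∀ v : {w : HeightOneSpectrum (𝓞 L) // w ∈ above K L T}, a (Sum.inl v) = c := by
    intro v
    obtain ⟨x, hx⟩ := exists_valT_eq_single L (above K L T) v
    have hcl : ((classNumber L : ℤ) : ℝ) ≠ 0 := by
      exact_mod_cast classNumber_ne_zero L
    have hlogN := (log_absNorm_pos L v.1).ne'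
    have hinl : ∀ w, logT K L T x (Sum.inl w) =
        if w = v then -((classNumber L : ℤ) : ℝ) * Real.log (Ideal.absNorm v.1.asIdeal) else 0 := by
      intro w
      rw [logT_inl, hx]
      by_cases hw : w = v
      · subst hw
        simp
      · rw [if_neg hw]
        simp [Pi.single_eq_of_ne hw]
    have h1 := hvan (Submodule.Quotient.mk x, 0)
    rw [hfa, Fintype.sum_sum_type] at h1
    simp only [iotaT_apply_apply, logTQ_mk, Int.cast_zero, add_zero, hinl, hinf] at h1
    have h2 := sum_logT K L T x
    rw [Fintype.sum_sum_type] at h2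
    simp only [hinl] at h2
    rw [Finset.sum_ite_eq' Finset.univ v, if_pos (Finset.mem_univ v)] at h2
    rw [← Finset.sum_mul] at h1
    have h3 : ∑ w : InfinitePlace L, logT K L T x (Sum.inr w) =
        ((classNumber L : ℤ) : ℝ) * Real.log (Ideal.absNorm v.1.asIdeal) := by linarith
    rw [h3] at h1
    have h4 : ∀ w : {w : HeightOneSpectrum (𝓞 L) // w ∈ above K L T},
        (if w = v then -((classNumber L : ℤ) : ℝ) * Real.log (Ideal.absNorm v.1.asIdeal) else 0) *
          a (Sum.inl w) =
        if w = v then -((classNumber L : ℤ) : ℝ) * Real.log (Ideal.absNorm v.1.asIdeal) *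
          a (Sum.inl v) else 0 := by
      intro w
      by_cases hw : w = v
      · subst hw
        simp
      · simp [hw]
    rw [Finset.sum_congr rfl fun w _ => h4 w, Finset.sum_ite_eq' Finset.univ v,
      if_pos (Finset.mem_univ v)] at h1
    have h5 : ((classNumber L : ℤ) : ℝ) * Real.log (Ideal.absNorm v.1.asIdeal) *
        (c - a (Sum.inl v)) = 0 := by linarith
    have h6 := (mul_eq_zero.mp h5).resolve_left (mul_ne_zero hcl hlogN)
    linarith
  -- hence all coordinates vanish
  have hall : ∀ y, a y = c := by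
    intro y
    rcases y with v | w
    · exact hfin v
    · exact hinf w
  have h1 := hvan (0, 1)
  rw [hfa] at h1
  simp only [iotaT_apply_apply, map_zero, Pi.zero_apply, Int.cast_one, zero_add, one_mul, hall,
    Finset.sum_const, Finset.card_univ, nsmul_eq_mul] at h1
  have hc0 : c = 0 := (mul_eq_zero.mp h1).resolve_left (card_XT_ne_zero K L T)
  apply hf0
  refine LinearMap.ext fun z => ?_
  rw [hfa]
  simp only [hall, hc0, mul_zero, Finset.sum_const_zero, LinearMap.zero_apply]

/-- **`T`-units as a Galois lattice.** For a Galois extension `L/K` of number fields with group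
`G`, and `T_L` the set of primes of `L` above a finite set `T` of primes of `K`, the lattice
`(T_L-units)/μ × ℤ` contains a `G`-stable sublattice of finite index which is isomorphic to the
permutation lattice `ℤ[T_L ⊔ InfinitePlace L]`. -/
theorem exists_perm_embedding_TUnits :
    ∃ ψ : (XT K L T → ℤ) →+ UZT K L T, Function.Injective ψ ∧
      (∀ (σ : L ≃ₐ[K] L) (f : XT K L T → ℤ),
        ψ (fun y => f (xAct K L T σ⁻¹ y)) = rhoT K L T σ (ψ f)) ∧ ψ.range.FiniteIndex := by
  classical
  let _ := mulActionXT K L T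
  exact exists_perm_embedding (G := L ≃ₐ[K] L) (equivUZT K L T) (card_option_finrank K L T)
    (rhoT K L T) (iotaT K L T) (iotaT_injective K L T)
    (fun σ a => funext fun y => iotaT_rhoT K L T σ a y) (span_range_iotaT K L T)

end Fermat.Agent.CFT.SUnit.TUnitsLattice
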