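import Mathlib
import Fermat.Agent.CFT.SUnit.TUnitsLattice
import Fermat.Agent.CFT.HerbrandPerm
import Fermat.Agent.CFT.HerbrandPi

/-!
# PROJECT C, slice C3 (general cyclic degree): the Herbrand quotient of the `T`-units

`L/K` a cyclic extension of number fields of ARBITRARY degree `n`, `σ` a generator of `Gal(L/K)`,
`T` a finite set of primes of `K`, `T_L = above K L T` the primes of `L` above `T`, and
`galAdd K L T σ` the action of `σ` on `Additive (TUnits L T_L)` (notation of `CFT/C3`).

* `hcyc_TUnits_of_orbits`: for `σ ^ n = 1` and any surjection `p : XT → Y` whose fibres are the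
  `σ`-orbits on `XT = T_L ⊔ InfinitePlace L`:
  `IsDefined` and `hcyc (galAdd K L T σ) n * n = ∏ y, n / #p⁻¹(y)`.
* `herbrand_TUnits_cyclic`: `h(T_L-units) · n = ∏_{v ∈ T} n_v · ∏_{v | ∞} n_v`,
  `n_v = n / #{places of L above v}`.
* `herbrand_TUnits_cyclic_of_isUnramified`, `herbrand_TUnits_cyclic_of_odd`: the infinite places
  drop out when `L/K` is unramified at infinity (e.g. of odd degree); `herbrand_TUnits_cyclic_div`
  the same in the form `h = (∏_{v ∈ T} n_v) / n`.

This generalises `CFT/C3/SUnitHerbrand.herbrand_TUnits` (prime degree) to arbitrary cyclic degree;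
the proof is the lattice argument (`CFT/SUnit/TUnitsLattice`): `(T_L-units)/μ × ℤ` contains the
permutation lattice `ℤ[XT]` with finite index, and `h(ℤ[XT]) = ∏ n_v` (`CFT/HerbrandPerm`).
-/

set_option autoImplicit false
set_option linter.unusedSectionVars false

noncomputable section

namespace Fermat.Agent.CFT.SUnit.TUnitsHerbrand

open NumberField NumberField.InfinitePlace NumberField.Units IsDedekindDomain Module
open Fermat.Agent.CFT.Herbrand Fermat.Agent.CFT.HerbrandPerm Fermat.Agent.CFT.HerbrandPi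
open Fermat.Agent.CFT.SUnit.TUnitsLattice
open Fermat.Agent.CFT.C3.SUnitRank Fermat.Agent.CFT.C3.SUnitHerbrand

/-! ### Generalities on `delta`, `nrm` -/

section General

variable {A B : Type*} [AddCommGroup A] [AddCommGroup B]

theorem delta_prodMap (σ : A →+ A) (τ : B →+ B) :
    delta (σ.prodMap τ) = (delta σ).prodMap (delta τ) := by
  ext x <;> simp [delta_apply]

theorem iterate_prodMap (σ : A →+ A) (τ : B →+ B) (i : ℕ) (x : A × B) :
    (σ.prodMap τ)^[i] x = (σ^[i] x.1, τ^[i] x.2) := by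
  induction i generalizing x with
  | zero => rfl
  | succ i ih => rw [Function.iterate_succ_apply, ih]; rfl

theorem nrm_prodMap (σ : A →+ A) (τ : B →+ B) (n : ℕ) :
    nrm (σ.prodMap τ) n = (nrm σ n).prodMap (nrm τ n) := by
  refine AddMonoidHom.ext fun x => ?_
  have h : ((nrm σ n).prodMap (nrm τ n)) x = (nrm σ n x.1, nrm τ n x.2) := rfl
  rw [h, nrm_apply, nrm_apply, nrm_apply]
  simp only [iterate_prodMap]
  exact Prod.ext (by rw [Prod.fst_sum]) (by rw [Prod.snd_sum])

/-- an equivariant map commutes with `delta` -/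
theorem map_delta (φ : A →+ B) (σ : A →+ A) (τ : B →+ B) (h : ∀ a, φ (σ a) = τ (φ a)) (a : A) :
    φ (delta σ a) = delta τ (φ a) := by
  rw [delta_apply, delta_apply, map_sub, h]

theorem map_iterate (φ : A →+ B) (σ : A →+ A) (τ : B →+ B) (h : ∀ a, φ (σ a) = τ (φ a)) (i : ℕ)
    (a : A) : φ (σ^[i] a) = τ^[i] (φ a) := by
  induction i generalizing a with
  | zero => rfl
  | succ i ih => rw [Function.iterate_succ_apply, ih, h, Function.iterate_succ_apply]

/-- an equivariant map commutes with `nrm` -/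
theorem map_nrm (φ : A →+ B) (σ : A →+ A) (τ : B →+ B) (h : ∀ a, φ (σ a) = τ (φ a)) (n : ℕ)
    (a : A) : φ (nrm σ n a) = nrm τ n (φ a) := by
  rw [nrm_apply, nrm_apply, map_sum]
  exact Finset.sum_congr rfl fun i _ => map_iterate φ σ τ h i a

/-- **Invariance of the cyclic Herbrand quotient** under equivariant maps with finite kernel and
cokernel. -/
theorem hcyc_eq_of_finite_ker_coker (φ : A →+ B) (σ : A →+ A) (τ : B →+ B)
    (h : ∀ a, φ (σ a) = τ (φ a)) (n : ℕ) (hσ : ∀ a, σ^[n] a = a) (hτ : ∀ b, τ^[n] b = b)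
    [Finite φ.ker] (hcoker : φ.range.index ≠ 0) :
    (IsDefined (delta σ) (nrm σ n) ↔ IsDefined (delta τ) (nrm τ n)) ∧
      hcyc σ n = hcyc τ n :=
  ⟨isDefined_iff_of_finite_ker_coker φ _ _ _ _ (delta_nrm_eq_zero σ n hσ)
      (nrm_delta_eq_zero σ n hσ) (delta_nrm_eq_zero τ n hτ) (nrm_delta_eq_zero τ n hτ)
      (map_delta φ σ τ h) (map_nrm φ σ τ h n) hcoker,
    herbrand_eq_of_finite_ker_coker φ _ _ _ _ (delta_nrm_eq_zero σ n hσ)
      (nrm_delta_eq_zero σ n hσ) (delta_nrm_eq_zero τ n hτ) (nrm_delta_eq_zero τ n hτ)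
      (map_delta φ σ τ h) (map_nrm φ σ τ h n) hcoker⟩

/-- Adding a factor `ℤ` with trivial action multiplies the Herbrand quotient by `n`. -/
theorem hcyc_prodMap_id_int (σ : A →+ A) (n : ℕ) (hn : n ≠ 0) :
    (IsDefined (delta (σ.prodMap (AddMonoidHom.id ℤ))) (nrm (σ.prodMap (AddMonoidHom.id ℤ)) n) ↔
      IsDefined (delta σ) (nrm σ n)) ∧
    hcyc (σ.prodMap (AddMonoidHom.id ℤ)) n = hcyc σ n * n := by
  obtain ⟨h1, h2, -, h4⟩ := herbrand_int n hn
  constructor
  · rw [IsDefined, IsDefined, delta_prodMap, nrm_prodMap, idx_prodMap, idx_prodMap, h1, h2,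
      mul_one]
    constructor
    · rintro ⟨h5, h6⟩
      exact ⟨fun h => h5 (by rw [h, zero_mul]), h6⟩
    · rintro ⟨h5, h6⟩
      exact ⟨mul_ne_zero h5 hn, h6⟩
  · rw [hcyc, delta_prodMap, nrm_prodMap, herbrand_prodMap]
    congr 1

end General

/-! ### The Herbrand quotient of the `T`-units, in terms of orbit data -/

variable (K L : Type*) [Field K] [NumberField K] [Field L] [NumberField L] [Algebra K L]
  [IsGalois K L]
variable (T : Finset (HeightOneSpectrum (𝓞 K)))

theorem galAdd_pow (σ : L ≃ₐ[K] L) (j : ℕ) (x : AT K L T) :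
    (galAdd K L T σ)^[j] x = galAdd K L T (σ ^ j) x := by
  rw [galAdd_iterate]
  rfl

theorem galQ_pow (σ : L ≃ₐ[K] L) (j : ℕ) (q : QT K L T) :
    (galQ K L T σ)^[j] q = galQ K L T (σ ^ j) q := by
  induction j generalizing q with
  | zero => rw [pow_zero, galQ_one]; rfl
  | succ j ih => rw [Function.iterate_succ_apply, ih, pow_succ, galQ_mul]

theorem rhoT_pow (σ : L ≃ₐ[K] L) (j : ℕ) (a : UZT K L T) :
    (rhoT K L T σ)^[j] a = rhoT K L T (σ ^ j) a := by
  induction j generalizing a with
  | zero => rw [pow_zero, rhoT_one]; rfl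
  | succ j ih => rw [Function.iterate_succ_apply, ih, pow_succ, rhoT_mul]

variable {K L T} in
/-- **The Herbrand quotient of the `T_L`-units** of a Galois extension `L/K` for an automorphism
`σ` with `σ ^ n = 1`, in terms of the orbits of `σ` on the set `XT` of places in `T_L` or infinite:
if `p : XT → Y` is a surjection whose fibres are the `σ`-orbits then
`h(T_L-units) · n = ∏_y (n / #p⁻¹(y))`. -/
theorem hcyc_TUnits_of_orbits (σ : L ≃ₐ[K] L) (n : ℕ) (hn : 0 < n) (hσ : σ ^ n = 1)
    {Y : Type*} [Fintype Y] [DecidableEq Y] [DecidableEq (XT K L T)] (p : XT K L T → Y)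
    (hp : ∀ x, p (xAct K L T σ x) = p x) (hsurj : Function.Surjective p)
    (htrans : ∀ x x', p x = p x' → ∃ j : ℕ, xAct K L T (σ ^ j) x = x') :
    IsDefined (delta (galAdd K L T σ)) (nrm (galAdd K L T σ) n) ∧
      hcyc (galAdd K L T σ) n * n = ∏ y, (HerbrandPerm.mult p n y : ℚ) := by
  set π := xPerm K L T σ with hπdef
  have hπ : ∀ x, (π ^ n) x = x := fun x => by rw [xPerm_pow, hσ, xAct_one]
  have hp' : ∀ x, p (π x) = p x := hp
  have htrans' : ∀ x x', p x = p x' → ∃ j : ℕ, (π ^ j) x = x' := fun x x' h => by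
    obtain ⟨j, hj⟩ := htrans x x' h
    exact ⟨j, by rw [xPerm_pow, hj]⟩
  -- the permutation lattice
  obtain ⟨hdef0, hval0⟩ := hcyc_permHom π p n hπ hp' hsurj htrans' hn
  -- the embedding of the permutation lattice
  obtain ⟨ψ, hψinj, hψeq, hψfin⟩ := exists_perm_embedding_TUnits K L T
  have hψσ : ∀ f, ψ (permHom π f) = rhoT K L T σ (ψ f) := fun f => hψeq σ f
  have hker : Finite ψ.ker := by
    have : Subsingleton ψ.ker := ⟨fun a b => Subtype.ext (hψinj (by
      rw [AddMonoidHom.mem_ker.mp a.2, AddMonoidHom.mem_ker.mp b.2]))⟩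
    infer_instance
  have hperiod : ∀ a, (rhoT K L T σ)^[n] a = a := fun a => by rw [rhoT_pow, hσ, rhoT_one]
  obtain ⟨hdef1, hval1⟩ := hcyc_eq_of_finite_ker_coker ψ (permHom π) (rhoT K L T σ) hψσ n
    (iterate_permHom_period π n hπ) hperiod hψfin.index_ne_zero
  -- split off the factor `ℤ`
  obtain ⟨hdef2, hval2⟩ := hcyc_prodMap_id_int (galQ K L T σ).toAddMonoidHom n hn.ne'
  -- divide out the roots of unity
  have hkerQ : Finite (torsT K L T).mkQ.toAddMonoidHom.ker := by
    have : ((torsT K L T).mkQ.toAddMonoidHom.ker : Set (AT K L T)) = (torsT K L T : Set _) := by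
      ext x
      simp
    have hfin : (torsT K L T : Set (AT K L T)).Finite :=
      (Set.finite_coe_iff (s := (torsT K L T : Set (AT K L T)))).mp
        (inferInstanceAs (Finite (torsT K L T)))
    exact Set.finite_coe_iff.mpr (this ▸ hfin)
  have hrange : (torsT K L T).mkQ.toAddMonoidHom.range.index ≠ 0 := by
    have : (torsT K L T).mkQ.toAddMonoidHom.range = ⊤ :=
      AddMonoidHom.range_eq_top.mpr (Submodule.mkQ_surjective _)
    rw [this, AddSubgroup.index_top]
    exact one_ne_zero
  obtain ⟨hdef3, hval3⟩ := hcyc_eq_of_finite_ker_coker (torsT K L T).mkQ.toAddMonoidHom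
    (galAdd K L T σ) (galQ K L T σ).toAddMonoidHom (fun _ => rfl) n
    (fun x => by rw [galAdd_pow, hσ, galAdd_one])
    (fun q => by
      show (galQ K L T σ)^[n] q = q
      rw [galQ_pow, hσ, galQ_one]) hrange
  refine ⟨hdef3.mpr (hdef2.mp (hdef1.mp hdef0)), ?_⟩
  rw [hval3, ← hval2]
  exact hval1.symm.trans hval0

/-! ### The orbit data of a cyclic Galois group -/

theorem smul_coe (σ : L ≃ₐ[K] L) (r : 𝓞 L) : ((σ • r : 𝓞 L) : L) = σ (r : L) := rfl

theorem galE_eq_smul (σ : L ≃ₐ[K] L) (r : 𝓞 L) : galE K L σ r = σ • r := by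
  apply RingOfIntegers.coe_injective
  rw [← galE_spec]
  rfl

open scoped Pointwise in
theorem primeAct_asIdeal (σ : L ≃ₐ[K] L) (w : HeightOneSpectrum (𝓞 L)) :
    (primeAct K L σ w).asIdeal = σ • w.asIdeal := by
  ext r
  rw [mem_primeAct, galE_eq_smul, Ideal.mem_pointwise_smul_iff_inv_smul_mem]

open scoped Pointwise in
/-- The Galois group acts transitively on the primes of `L` above a prime of `K`. -/
theorem exists_primeAct_eq (w w' : HeightOneSpectrum (𝓞 L)) (h : below K L w = below K L w') :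
    ∃ τ : L ≃ₐ[K] L, primeAct K L τ w = w' := by
  have : w'.asIdeal.LiesOver (below K L w).asIdeal := by
    rw [h]
    infer_instance
  obtain ⟨τ, hτ⟩ := Ideal.exists_smul_eq_of_isGaloisGroup (below K L w).asIdeal w.asIdeal
    w'.asIdeal (L ≃ₐ[K] L)
  refine ⟨τ, HeightOneSpectrum.ext ?_⟩
  rw [primeAct_asIdeal, hτ]

/-- The set of places of `K` below `XT`: the primes in `T` and the infinite places of `K`. -/
abbrev YT : Type _ := {v : HeightOneSpectrum (𝓞 K) // v ∈ T} ⊕ InfinitePlace K

/-- Restriction of places from `L` to `K`. -/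
def restrictPlace : XT K L T → YT K T :=
  Sum.map (fun w => ⟨below K L w.1, (mem_above K L T).mp w.2⟩)
    (fun w => w.comap (algebraMap K L))

@[simp] theorem restrictPlace_inl (w : {w : HeightOneSpectrum (𝓞 L) // w ∈ above K L T}) :
    restrictPlace K L T (Sum.inl w) = Sum.inl ⟨below K L w.1, (mem_above K L T).mp w.2⟩ := rfl

@[simp] theorem restrictPlace_inr (w : InfinitePlace L) :
    restrictPlace K L T (Sum.inr w) = Sum.inr (w.comap (algebraMap K L)) := rfl

theorem restrictPlace_xAct (σ : L ≃ₐ[K] L) (x : XT K L T) :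
    restrictPlace K L T (xAct K L T σ x) = restrictPlace K L T x := by
  rcases x with w | w
  · rw [xAct_inl, restrictPlace_inl, restrictPlace_inl]
    congr 1
    exact Subtype.ext (below_primeAct K L σ w.1)
  · rw [xAct_inr, restrictPlace_inr, restrictPlace_inr, InfinitePlace.comap_smul]
    congr 2
    ext x
    exact σ.symm.commutes x

theorem restrictPlace_surjective : Function.Surjective (restrictPlace K L T) := by
  rintro (v | v)
  · obtain ⟨⟨P, hP1, hP2⟩⟩ : Nonempty (Ideal.primesOver v.1.asIdeal (𝓞 L)) := inferInstance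
    let w : HeightOneSpectrum (𝓞 L) :=
      ⟨P, hP1, Ideal.ne_bot_of_mem_primesOver v.1.ne_bot ⟨hP1, hP2⟩⟩
    have hwv : below K L w = v.1 := HeightOneSpectrum.ext hP2.over.symm
    refine ⟨Sum.inl ⟨w, (mem_above K L T).mpr (hwv ▸ v.2)⟩, ?_⟩
    rw [restrictPlace_inl]
    congr 1
    exact Subtype.ext hwv
  · obtain ⟨w, hw⟩ := InfinitePlace.comap_surjective (K := L) v
    exact ⟨Sum.inr w, by rw [restrictPlace_inr]; exact congrArg Sum.inr hw⟩

theorem exists_pow_eq {σ : L ≃ₐ[K] L} (hσ : ∀ τ : L ≃ₐ[K] L, τ ∈ Subgroup.zpowers σ)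
    (τ : L ≃ₐ[K] L) : ∃ j : ℕ, σ ^ j = τ := by
  have h := (isOfFinOrder_of_finite σ).mem_powers_iff_mem_zpowers.mpr (hσ τ)
  exact (Submonoid.mem_powers_iff τ σ).mp h

theorem exists_pow_xAct_eq {σ : L ≃ₐ[K] L} (hσ : ∀ τ : L ≃ₐ[K] L, τ ∈ Subgroup.zpowers σ)
    (x x' : XT K L T) (h : restrictPlace K L T x = restrictPlace K L T x') :
    ∃ j : ℕ, xAct K L T (σ ^ j) x = x' := by
  rcases x with w | w <;> rcases x' with w' | w'
  · rw [restrictPlace_inl, restrictPlace_inl] at h
    have h1 : below K L w.1 = below K L w'.1 := congrArg Subtype.val (Sum.inl.inj h)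
    obtain ⟨τ, hτ⟩ := exists_primeAct_eq K L w.1 w'.1 h1
    obtain ⟨j, rfl⟩ := exists_pow_eq K L hσ τ
    exact ⟨j, by rw [xAct_inl]; exact congrArg Sum.inl (Subtype.ext hτ)⟩
  · exact absurd h (by simp)
  · exact absurd h (by simp)
  · rw [restrictPlace_inr, restrictPlace_inr] at h
    obtain ⟨τ, hτ⟩ := InfinitePlace.exists_smul_eq_of_comap_eq (Sum.inr.inj h)
    obtain ⟨j, rfl⟩ := exists_pow_eq K L hσ τ
    exact ⟨j, by rw [xAct_inr, hτ]⟩

/-! ### The fibres of the restriction map -/

/-- The places in `XT` above a prime `v ∈ T` are the primes of `L` above `v`. -/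
def fibreInlEquiv (v : {v : HeightOneSpectrum (𝓞 K) // v ∈ T}) :
    {x : XT K L T // restrictPlace K L T x = Sum.inl v} ≃ fibre K L v.1 where
  toFun x := match x with
    | ⟨Sum.inl w, h⟩ => ⟨w.1, congrArg Subtype.val (Sum.inl.inj h)⟩
    | ⟨Sum.inr _, h⟩ => absurd h (by simp)
  invFun w := ⟨Sum.inl ⟨w.1, (mem_above K L T).mpr (by
      have h : below K L w.1 = v.1 := w.2
      rw [h]
      exact v.2)⟩, by
    rw [restrictPlace_inl]
    congr 1
    exact Subtype.ext w.2⟩
  left_inv x := by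
    rcases x with ⟨w | w, h⟩
    · rfl
    · exact absurd h (by simp)
  right_inv w := rfl

/-- The places in `XT` above an infinite place `v` of `K` are the infinite places of `L` above
`v`. -/
def fibreInrEquiv (v : InfinitePlace K) :
    {x : XT K L T // restrictPlace K L T x = Sum.inr v} ≃
      {w : InfinitePlace L // w.comap (algebraMap K L) = v} where
  toFun x := match x with
    | ⟨Sum.inl _, h⟩ => absurd h (by simp)
    | ⟨Sum.inr w, h⟩ => ⟨w, Sum.inr.inj h⟩
  invFun w := ⟨Sum.inr w.1, by rw [restrictPlace_inr, w.2]⟩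
  left_inv x := by
    rcases x with ⟨w | w, h⟩
    · exact absurd h (by simp)
    · rfl
  right_inv w := rfl

theorem fibreCard_eq_natCard [DecidableEq (YT K T)] (y : YT K T) :
    fibreCard (restrictPlace K L T) y =
      Nat.card {x : XT K L T // restrictPlace K L T x = y} := by
  rw [fibreCard, Nat.card_eq_fintype_card, Fintype.card_subtype]

theorem fibreCard_inl [DecidableEq (YT K T)] (v : {v : HeightOneSpectrum (𝓞 K) // v ∈ T}) :
    fibreCard (restrictPlace K L T) (Sum.inl v) =
      (Ideal.primesOver v.1.asIdeal (𝓞 L)).ncard := by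
  rw [fibreCard_eq_natCard, Nat.card_congr (fibreInlEquiv K L T v), card_fibre]

theorem fibreCard_inr [DecidableEq (YT K T)] (v : InfinitePlace K) :
    fibreCard (restrictPlace K L T) (Sum.inr v) =
      Nat.card {w : InfinitePlace L // w.comap (algebraMap K L) = v} := by
  rw [fibreCard_eq_natCard, Nat.card_congr (fibreInrEquiv K L T v)]

/-! ### The main theorem -/

/-- **The Herbrand quotient of the `T_L`-units of a cyclic extension** `L/K` of number fields of
arbitrary degree `n`, `σ` a generator of `Gal(L/K)`, `T` a finite set of primes of `K` and `T_L` the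
set of primes of `L` above `T`:
`h(T_L-units) · n = ∏_{v ∈ T} n_v · ∏_{v | ∞} n_v`, where `n_v = n / #{places of L above v}` is the
local degree at `v`. -/
theorem herbrand_TUnits_cyclic {σ : L ≃ₐ[K] L} (hσ : ∀ τ : L ≃ₐ[K] L, τ ∈ Subgroup.zpowers σ) :
    IsDefined (delta (galAdd K L T σ)) (nrm (galAdd K L T σ) (finrank K L)) ∧
      herbrand (delta (galAdd K L T σ)) (nrm (galAdd K L T σ) (finrank K L)) * finrank K L =
        (∏ v ∈ T, ((finrank K L / (Ideal.primesOver v.asIdeal (𝓞 L)).ncard : ℕ) : ℚ)) *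
          ∏ v : InfinitePlace K, ((finrank K L /
            Nat.card {w : InfinitePlace L // w.comap (algebraMap K L) = v} : ℕ) : ℚ) := by
  classical
  have hn : 0 < finrank K L := finrank_pos
  have hσn : σ ^ finrank K L = 1 := by
    rw [← IsGalois.card_aut_eq_finrank]
    exact pow_card_eq_one'
  obtain ⟨h1, h2⟩ := hcyc_TUnits_of_orbits σ (finrank K L) hn hσn (restrictPlace K L T)
    (restrictPlace_xAct K L T σ) (restrictPlace_surjective K L T)
    (exists_pow_xAct_eq K L T hσ)
  refine ⟨h1, ?_⟩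
  rw [hcyc] at h2
  rw [h2, Fintype.prod_sum_type, ← Finset.prod_coe_sort T]
  congr 1
  · refine Finset.prod_congr rfl fun v _ => ?_
    rw [HerbrandPerm.mult, fibreCard_inl]
  · refine Finset.prod_congr rfl fun v _ => ?_
    rw [HerbrandPerm.mult, fibreCard_inr]

/-- If `L/K` is unramified at infinity, every infinite place of `K` has exactly `[L:K]` places of
`L` above it. -/
theorem card_comap_fibre_of_isUnramified [IsUnramifiedAtInfinitePlaces K L] (v : InfinitePlace K) :
    Nat.card {w : InfinitePlace L // w.comap (algebraMap K L) = v} = finrank K L := by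
  obtain ⟨w₀, hw₀⟩ := InfinitePlace.comap_surjective (K := L) v
  replace hw₀ : w₀.comap (algebraMap K L) = v := hw₀
  have hset : {w : InfinitePlace L | w.comap (algebraMap K L) = v} =
      MulAction.orbit (L ≃ₐ[K] L) w₀ := by
    ext w
    rw [InfinitePlace.mem_orbit_iff, Set.mem_ofPred_eq, hw₀]
    exact eq_comm
  have h1 : Nat.card {w : InfinitePlace L // w.comap (algebraMap K L) = v} =
      (MulAction.orbit (L ≃ₐ[K] L) w₀).ncard := by
    rw [← hset]
    exact Nat.card_coe_set_eq _
  rw [h1, ← MulAction.index_stabilizer,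
    (IsUnramifiedAtInfinitePlaces.isUnramified (k := K) w₀).stabilizer_eq_bot, Subgroup.index_bot,
    IsGalois.card_aut_eq_finrank]

/-- **The Herbrand quotient of the `T_L`-units of a cyclic extension unramified at infinity**
(e.g. of odd degree): `h(T_L-units) · n = ∏_{v ∈ T} n_v`. -/
theorem herbrand_TUnits_cyclic_of_isUnramified [IsUnramifiedAtInfinitePlaces K L]
    {σ : L ≃ₐ[K] L} (hσ : ∀ τ : L ≃ₐ[K] L, τ ∈ Subgroup.zpowers σ) :
    IsDefined (delta (galAdd K L T σ)) (nrm (galAdd K L T σ) (finrank K L)) ∧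
      herbrand (delta (galAdd K L T σ)) (nrm (galAdd K L T σ) (finrank K L)) * finrank K L =
        ∏ v ∈ T, ((finrank K L / (Ideal.primesOver v.asIdeal (𝓞 L)).ncard : ℕ) : ℚ) := by
  obtain ⟨h1, h2⟩ := herbrand_TUnits_cyclic K L T hσ
  refine ⟨h1, ?_⟩
  rw [h2]
  have hn : 0 < finrank K L := finrank_pos
  have : ∀ v : InfinitePlace K, ((finrank K L /
      Nat.card {w : InfinitePlace L // w.comap (algebraMap K L) = v} : ℕ) : ℚ) = 1 := by
    intro v
    rw [card_comap_fibre_of_isUnramified, Nat.div_self hn, Nat.cast_one]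
  rw [Finset.prod_congr rfl fun v _ => this v, Finset.prod_const_one, mul_one]

/-- The same for odd degree (where the condition at infinity is automatic). -/
theorem herbrand_TUnits_cyclic_of_odd (hodd : Odd (finrank K L))
    {σ : L ≃ₐ[K] L} (hσ : ∀ τ : L ≃ₐ[K] L, τ ∈ Subgroup.zpowers σ) :
    IsDefined (delta (galAdd K L T σ)) (nrm (galAdd K L T σ) (finrank K L)) ∧
      herbrand (delta (galAdd K L T σ)) (nrm (galAdd K L T σ) (finrank K L)) * finrank K L =
        ∏ v ∈ T, ((finrank K L / (Ideal.primesOver v.asIdeal (𝓞 L)).ncard : ℕ) : ℚ) := by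
  have : IsUnramifiedAtInfinitePlaces K L := IsUnramifiedAtInfinitePlaces_of_odd_finrank hodd
  exact herbrand_TUnits_cyclic_of_isUnramified K L T hσ

/-- Division form: `h(T_L-units) = (∏_{v ∈ T} n_v) / n` for `L/K` cyclic unramified at infinity. -/
theorem herbrand_TUnits_cyclic_div [IsUnramifiedAtInfinitePlaces K L]
    {σ : L ≃ₐ[K] L} (hσ : ∀ τ : L ≃ₐ[K] L, τ ∈ Subgroup.zpowers σ) :
    herbrand (delta (galAdd K L T σ)) (nrm (galAdd K L T σ) (finrank K L)) =
      (∏ v ∈ T, ((finrank K L / (Ideal.primesOver v.asIdeal (𝓞 L)).ncard : ℕ) : ℚ)) /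
        finrank K L := by
  have hn : (finrank K L : ℚ) ≠ 0 := by
    have : 0 < finrank K L := finrank_pos
    exact_mod_cast this.ne'
  exact eq_div_of_mul_eq hn (herbrand_TUnits_cyclic_of_isUnramified K L T hσ).2

end Fermat.Agent.CFT.SUnit.TUnitsHerbrand
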