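import Mathlib
import Fermat.Agent.CFT.Herbrand
import Fermat.Agent.CFT.HerbrandPi
import Fermat.Agent.CFT.C3.SUnitRank

/-!
# PROJECT C: the index of the `n`-th powers in the group of `T`-units

* `index_range_nsmul` : for a finitely generated abelian group `A` and `n ≠ 0`,
  `[A : n A] = n ^ rank A * #A[n]` (Herbrand quotient of the pair `(0, n)`).
* `index_range_pow_TUnits`, `relIndex_map_pow_TUnits` : for a number field `K` and a finite set `T`
  of primes, `[U_T : U_T ^ n] = n ^ (rank 𝓞_Kˣ + #T) * #μ_n(K)` (`U_T = TUnits K T` of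
  `CFT/C3/SUnitRank`).
* `index_range_pow_TUnits_of_isPrimitiveRoot` : if `K` contains a primitive `p`-th root of unity,
  `[U_T : U_T ^ p] = p ^ (rank 𝓞_Kˣ + #T + 1) = p ^ (#InfinitePlace K + #T)`.

This is the global count (`hDU`) of the index computations of the second inequality / of the
existence theorem in exponent `p` (`CFT/C5/IndexAbstract`).
-/

set_option autoImplicit false
set_option linter.unusedSectionVars false

noncomputable section

namespace Fermat.Agent.CFT.SUnit.TUnitsPow

open Module Fermat.Agent.CFT.Herbrand Fermat.Agent.CFT.HerbrandPi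

/-! ### The index of `n A` in a finitely generated abelian group `A` -/

section Algebra

theorem idx_zero_nsmul_int (n : ℕ) (hn : n ≠ 0) :
    idx (0 : ℤ →+ ℤ) (nsmulAddMonoidHom n) = n ∧ idx (nsmulAddMonoidHom n) (0 : ℤ →+ ℤ) = 1 := by
  obtain ⟨h1, h2, -, -⟩ := herbrand_int n hn
  have h3 : nrm (AddMonoidHom.id ℤ) n = nsmulAddMonoidHom n := by
    ext
    rw [nrm_id_apply, nsmulAddMonoidHom_apply]
  rw [delta_id, h3] at h1 h2
  exact ⟨h1, h2⟩

variable {A : Type*} [AddCommGroup A]

theorem idx_zero_nsmul_of_equiv {r : ℕ} (e : A ≃+ (Fin r → ℤ)) (n : ℕ) (hn : n ≠ 0) :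
    idx (0 : A →+ A) (nsmulAddMonoidHom n) = n ^ r ∧
      idx (nsmulAddMonoidHom n) (0 : A →+ A) = 1 := by
  have h0 : ∀ a, e ((0 : A →+ A) a) =
      (AddMonoidHom.piMap fun _ : Fin r => (0 : ℤ →+ ℤ)) (e a) := by
    intro a
    funext i
    simp
  have h1 : ∀ a, e ((nsmulAddMonoidHom n : A →+ A) a) =
      (AddMonoidHom.piMap fun _ : Fin r => (nsmulAddMonoidHom n : ℤ →+ ℤ)) (e a) := by
    intro a
    funext i
    simp
  obtain ⟨h2, h3⟩ := idx_zero_nsmul_int n hn
  constructor
  · rw [idx_congr e _ _ _ _ h0 h1, idx_piMap]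
    simp only [h2, Finset.prod_const, Finset.card_univ, Fintype.card_fin]
  · rw [idx_congr e _ _ _ _ h1 h0, idx_piMap]
    simp only [h3, Finset.prod_const, one_pow]

variable [Module.Finite ℤ A]

instance finite_torsion : Finite (Submodule.torsion ℤ A) :=
  Module.finite_of_fg_torsion _ (Submodule.torsion_isTorsion)

theorem finrank_torsion : finrank ℤ (Submodule.torsion ℤ A) = 0 :=
  Module.finrank_eq_zero_iff_isTorsion.mpr Submodule.torsion_isTorsion

theorem finrank_quotient_torsion : finrank ℤ (A ⧸ Submodule.torsion ℤ A) = finrank ℤ A := by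
  have h := Submodule.finrank_quotient_add_finrank (Submodule.torsion ℤ A)
  rw [finrank_torsion, add_zero] at h
  exact h

theorem ker_nsmul_le_torsion (n : ℕ) (hn : n ≠ 0) (x : A)
    (hx : x ∈ (nsmulAddMonoidHom n : A →+ A).ker) : x ∈ Submodule.torsion ℤ A := by
  rw [AddMonoidHom.mem_ker, nsmulAddMonoidHom_apply] at hx
  rw [Submodule.mem_torsion_iff]
  refine ⟨⟨(n : ℤ), ?_⟩, ?_⟩
  · rw [mem_nonZeroDivisors_iff_ne_zero]
    exact_mod_cast hn
  · show (n : ℤ) • x = 0
    rw [natCast_zsmul, hx]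

instance finite_ker_nsmul (n : ℕ) [NeZero n] : Finite (nsmulAddMonoidHom n : A →+ A).ker := by
  have h : ((nsmulAddMonoidHom n : A →+ A).ker : Set A) ⊆ (Submodule.torsion ℤ A : Set A) :=
    fun x hx => ker_nsmul_le_torsion n (NeZero.ne n) x hx
  have hfin : (Submodule.torsion ℤ A : Set A).Finite :=
    (Set.finite_coe_iff (s := (Submodule.torsion ℤ A : Set A))).mp
      (inferInstanceAs (Finite (Submodule.torsion ℤ A)))
  exact Set.finite_coe_iff.mpr (hfin.subset h)

/-- **The index of `n A`** in a finitely generated abelian group `A` is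
`n ^ rank A * #A[n]`. -/
theorem index_range_nsmul (n : ℕ) (hn : n ≠ 0) :
    (nsmulAddMonoidHom n : A →+ A).range.index =
      n ^ finrank ℤ A * Nat.card (nsmulAddMonoidHom n : A →+ A).ker := by
  have : NeZero n := ⟨hn⟩
  set t := Submodule.torsion ℤ A with ht
  -- the free quotient
  have hfree : Module.Free ℤ (A ⧸ t) := inferInstance
  let e : (A ⧸ t) ≃+ (Fin (finrank ℤ (A ⧸ t)) → ℤ) :=
    (Module.finBasis ℤ (A ⧸ t)).equivFun.toAddEquiv
  obtain ⟨h1, h2⟩ := idx_zero_nsmul_of_equiv e n hn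
  -- invariance of the Herbrand quotient
  have hker : Finite t.mkQ.toAddMonoidHom.ker := by
    have : (t.mkQ.toAddMonoidHom.ker : Set A) = (t : Set A) := by
      ext x
      simp
    have hfin : (t : Set A).Finite :=
      (Set.finite_coe_iff (s := (t : Set A))).mp (inferInstanceAs (Finite t))
    exact Set.finite_coe_iff.mpr (this ▸ hfin)
  have hrange : t.mkQ.toAddMonoidHom.range.index ≠ 0 := by
    have : t.mkQ.toAddMonoidHom.range = ⊤ :=
      AddMonoidHom.range_eq_top.mpr (Submodule.mkQ_surjective _)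
    rw [this, AddSubgroup.index_top]
    exact one_ne_zero
  have key := herbrand_eq_of_finite_ker_coker t.mkQ.toAddMonoidHom (0 : A →+ A)
    (nsmulAddMonoidHom n) (0 : A ⧸ t →+ A ⧸ t) (nsmulAddMonoidHom n)
    (fun _ => rfl) (fun _ => by simp) (fun _ => rfl) (fun _ => by simp)
    (fun _ => by simp) (fun a => by simp) hrange
  rw [herbrand, herbrand, h1, h2, idx_zero_left, idx_zero_right, finrank_quotient_torsion,
    Nat.cast_one, div_one] at key
  have hcard : (Nat.card (nsmulAddMonoidHom n : A →+ A).ker : ℚ) ≠ 0 := by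
    have : 0 < Nat.card (nsmulAddMonoidHom n : A →+ A).ker := Nat.card_pos
    exact_mod_cast this.ne'
  rw [div_eq_iff hcard] at key
  exact_mod_cast key

end Algebra

/-! ### The index of the `n`-th powers in the `T`-units -/

section TUnits

open NumberField IsDedekindDomain Fermat.Agent.CFT.C3.SUnitRank

variable (K : Type*) [Field K] [NumberField K] (T : Finset (HeightOneSpectrum (𝓞 K)))

variable {K} in
/-- Roots of unity are `T`-units. -/
theorem mem_TUnits_of_pow_eq_one {n : ℕ} (hn : n ≠ 0) {ζ : Kˣ} (hζ : ζ ^ n = 1) :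
    ζ ∈ TUnits K T := by
  intro v _
  have h1 : (v.valuation K (ζ : K)) ^ n = 1 := by
    rw [← map_pow, ← Units.val_pow_eq_pow_val, hζ, Units.val_one, map_one]
  exact (pow_eq_one_iff.mp h1).resolve_right hn

/-- The `n`-torsion of the `T`-units is the group of `n`-th roots of unity of `K`. -/
def kerEquiv (n : ℕ) [NeZero n] :
    (nsmulAddMonoidHom n : Additive (TUnits K T) →+ Additive (TUnits K T)).ker ≃
      rootsOfUnity n K where
  toFun x := ⟨((Additive.toMul x.1 : TUnits K T) : Kˣ), by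
    have h := x.2
    rw [AddMonoidHom.mem_ker, nsmulAddMonoidHom_apply] at h
    rw [mem_rootsOfUnity]
    have h' : (Additive.toMul x.1 : TUnits K T) ^ n = 1 := congrArg Additive.toMul h
    exact_mod_cast congrArg (Subtype.val) h'⟩
  invFun ζ := ⟨Additive.ofMul ⟨ζ.1, mem_TUnits_of_pow_eq_one T (NeZero.ne n)
      ((mem_rootsOfUnity _ _).mp ζ.2)⟩, by
    rw [AddMonoidHom.mem_ker, nsmulAddMonoidHom_apply]
    apply Additive.toMul.injective
    apply Subtype.ext
    exact (mem_rootsOfUnity _ _).mp ζ.2⟩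
  left_inv x := rfl
  right_inv ζ := rfl

theorem index_range_nsmul_TUnits (n : ℕ) (hn : n ≠ 0) :
    (nsmulAddMonoidHom n : Additive (TUnits K T) →+ Additive (TUnits K T)).range.index =
      n ^ (NumberField.Units.rank K + T.card) * Nat.card (rootsOfUnity n K) := by
  have : NeZero n := ⟨hn⟩
  rw [index_range_nsmul n hn, finrank_TUnits, Nat.card_congr (kerEquiv K T n)]

/-- **The index of the `n`-th powers in the `T`-units** is
`n ^ (rank 𝓞_Kˣ + #T) * #μ_n(K)`. -/
theorem index_range_pow_TUnits (n : ℕ) (hn : n ≠ 0) :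
    (powMonoidHom n : TUnits K T →* TUnits K T).range.index =
      n ^ (NumberField.Units.rank K + T.card) * Nat.card (rootsOfUnity n K) := by
  rw [← index_range_nsmul_TUnits K T n hn]
  rfl

/-- Subgroup form: `[U_T : U_T ^ n]`. -/
theorem relIndex_map_pow_TUnits (n : ℕ) (hn : n ≠ 0) :
    ((TUnits K T).map (powMonoidHom n : Kˣ →* Kˣ)).relIndex (TUnits K T) =
      n ^ (NumberField.Units.rank K + T.card) * Nat.card (rootsOfUnity n K) := by
  rw [← index_range_pow_TUnits K T n hn, Subgroup.relIndex]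
  congr 1
  ext x
  simp only [Subgroup.mem_subgroupOf, Subgroup.mem_map, powMonoidHom_apply, MonoidHom.mem_range]
  constructor
  · rintro ⟨y, hy, hyx⟩
    exact ⟨⟨y, hy⟩, Subtype.ext hyx⟩
  · rintro ⟨y, rfl⟩
    exact ⟨y.1, y.2, rfl⟩

/-- If `K` contains a primitive `p`-th root of unity, `[U_T : U_T ^ p] = p ^ (rank + #T + 1)`. -/
theorem index_range_pow_TUnits_of_isPrimitiveRoot {p : ℕ} (hp : p ≠ 0) {ζ : K}
    (hζ : IsPrimitiveRoot ζ p) :
    (powMonoidHom p : TUnits K T →* TUnits K T).range.index =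
      p ^ (NumberField.Units.rank K + T.card + 1) := by
  have : NeZero p := ⟨hp⟩
  rw [index_range_pow_TUnits K T p hp, hζ.card_rootsOfUnity, pow_succ]

theorem relIndex_map_pow_TUnits_of_isPrimitiveRoot {p : ℕ} (hp : p ≠ 0) {ζ : K}
    (hζ : IsPrimitiveRoot ζ p) :
    ((TUnits K T).map (powMonoidHom p : Kˣ →* Kˣ)).relIndex (TUnits K T) =
      p ^ (NumberField.Units.rank K + T.card + 1) := by
  have : NeZero p := ⟨hp⟩
  rw [relIndex_map_pow_TUnits K T p hp, hζ.card_rootsOfUnity, pow_succ]

theorem rank_add_one : NumberField.Units.rank K + 1 = Fintype.card (InfinitePlace K) := by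
  rw [NumberField.Units.rank]
  have : 0 < Fintype.card (InfinitePlace K) := Fintype.card_pos
  omega

/-- The same with `rank 𝓞_Kˣ + 1 = #InfinitePlace K`. -/
theorem index_range_pow_TUnits_of_isPrimitiveRoot' {p : ℕ} (hp : p ≠ 0) {ζ : K}
    (hζ : IsPrimitiveRoot ζ p) :
    (powMonoidHom p : TUnits K T →* TUnits K T).range.index =
      p ^ (Fintype.card (InfinitePlace K) + T.card) := by
  rw [index_range_pow_TUnits_of_isPrimitiveRoot K T hp hζ, ← rank_add_one]
  congr 1
  omega

theorem relIndex_map_pow_TUnits_of_isPrimitiveRoot' {p : ℕ} (hp : p ≠ 0) {ζ : K}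
    (hζ : IsPrimitiveRoot ζ p) :
    ((TUnits K T).map (powMonoidHom p : Kˣ →* Kˣ)).relIndex (TUnits K T) =
      p ^ (Fintype.card (InfinitePlace K) + T.card) := by
  rw [relIndex_map_pow_TUnits_of_isPrimitiveRoot K T hp hζ, ← rank_add_one]
  congr 1
  omega

end TUnits

end Fermat.Agent.CFT.SUnit.TUnitsPow
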